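import Fermat.Agent.FiniteFlat.TorsionOrder
import Fermat.Agent.GaloisReps.Flat
import Fermat.Agent.GaloisReps.OfInjective
import Fermat.Agent.RedTorsion.Injective

/-!
# Flatness at `p` of Hecke–Galois data of level prime to `p`
-/

set_option autoImplicit false

noncomputable section

open ModularCurve Fermat.Agent.GaloisReps
open Fermat.Agent.Arith

namespace Fermat.Agent.FiniteFlat

variable {p N : ℕ} [NeZero N] {S : Finset ℕ}
  {O : Type} [CommRing O] [IsDomain O] [IsDiscreteValuationRing O]
  [IsAdicComplete (IsLocalRing.maximalIdeal O) O]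
  {θ : CuspForm.heckeAlgebra N 2 (↑S : Set ℕ) →+* IsLocalRing.ResidueField O}
  {T : Type} [CommRing T] [IsLocalRing T] [IsNoetherianRing T]
  [IsAdicComplete (IsLocalRing.maximalIdeal T) T] [Algebra O T] [IsLocalHom (algebraMap O T)]
  [Module.Finite O T] [Module.Free O T]

theorem datum_isFlatAt [Finite (IsLocalRing.ResidueField O)] (hp : p.Prime) (hpN : ¬ p ∣ N)
    (hpO : (p : O) ∈ IsLocalRing.maximalIdeal O)
    (H : CuspForm.HeckeGaloisRepDatum N (↑S : Set ℕ) O θ T) : H.ρ.IsFlatAt p := by
  haveI : Fact p.Prime := ⟨hp⟩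
  refine isFlatAt_of_congruence
    (congruenceProperty_of_injective (RedTorsion.injectiveOnTorsion N)) hpO H fun M => ?_
  exact ⟨JTorsBy N ((p ^ M : ℕ) : ℤ), inferInstance, inferInstance,
    { toFun := fun x => ⟨(x : JZero N), x.2⟩
      map_zero' := rfl
      map_add' := fun _ _ => rfl },
    fun x y h => Subtype.ext (congrArg Subtype.val h :), fun σ x => rfl,
    nonempty_galOrder_jTorsBy hp hpN (Int.natCast_ne_zero.mpr (pow_ne_zero M hp.ne_zero))⟩

end Fermat.Agent.FiniteFlat

end
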