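import Fermat.Agent.FiniteFlat.Operation

/-!
# Normalised coordinates of regular families

A family `L(E - D)` with constant reduction is regular over `R` exactly when its normalised
coordinates in a frame of `L(E)` lie in `R`; such coordinates are unique.
-/

set_option autoImplicit false
set_option maxHeartbeats 1000000
set_option synthInstance.maxHeartbeats 400000
set_option linter.unusedSectionVars false

noncomputable section

open IsLocalRing AlgebraicCurve Matrix
open Fermat.Agent.Arith Fermat.Agent.FF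

namespace Fermat.Agent.FiniteFlat

section Unique

variable {A : ValuationSubring QBar} {F : Type*} [AddCommGroup F] [Module QBar F]
  {ι κ : Type*} [Fintype ι] [Fintype κ] [DecidableEq κ]

/-- Coordinates of a basis of `W`, normalised by a fixed projection. -/
def IsCoords (W : Submodule QBar F) (u : ι → F) (Lt : Matrix κ ι A) (C : Matrix ι κ QBar) : Prop :=
  (∀ j, ∑ i, C i j • u i ∈ W) ∧ Lt.map A.subtype * C = 1

theorem IsCoords.linearIndependent {W : Submodule QBar F} {u : ι → F} {Lt : Matrix κ ι A}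
    {C : Matrix ι κ QBar} (hC : IsCoords W u Lt C) (hu : LinearIndependent QBar u) :
    LinearIndependent QBar fun j => ∑ i, C i j • u i := by
  rw [Fintype.linearIndependent_iff]
  intro c hc
  simp only [Finset.smul_sum, smul_smul] at hc
  rw [Finset.sum_comm] at hc
  simp only [← Finset.sum_smul] at hc
  have h1 : C *ᵥ c = 0 := funext fun i => by
    rw [Pi.zero_apply, ← Fintype.linearIndependent_iff.mp hu _ hc i]
    exact Finset.sum_congr rfl fun j _ => mul_comm _ _
  have h2 := congrArg (fun w => Lt.map A.subtype *ᵥ w) h1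
  simp only [Matrix.mulVec_mulVec, hC.2, Matrix.one_mulVec, Matrix.mulVec_zero] at h2
  exact congrFun h2

theorem IsCoords.span_eq {W : Submodule QBar F} [FiniteDimensional QBar W] {u : ι → F}
    {Lt : Matrix κ ι A} {C : Matrix ι κ QBar} (hC : IsCoords W u Lt C)
    (hu : LinearIndependent QBar u) (hW : Module.finrank QBar W = Fintype.card κ) :
    Submodule.span QBar (Set.range fun j => ∑ i, C i j • u i) = W := by
  refine Submodule.eq_of_le_of_finrank_eq (Submodule.span_le.mpr ?_) ?_
  · rintro _ ⟨j, rfl⟩; exact hC.1 j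
  · rw [finrank_span_eq_card (hC.linearIndependent hu), hW]

theorem IsCoords.eq {W : Submodule QBar F} [FiniteDimensional QBar W] {u : ι → F}
    {Lt : Matrix κ ι A} {C C' : Matrix ι κ QBar} (hC : IsCoords W u Lt C) (hC' : IsCoords W u Lt C')
    (hu : LinearIndependent QBar u) (hW : Module.finrank QBar W = Fintype.card κ) : C' = C := by
  have hsp := hC.span_eq hu hW
  have ht : ∀ j, ∃ t : κ → QBar, ∑ k, t k • ∑ i, C i k • u i = ∑ i, C' i j • u i := fun j =>
    (Submodule.mem_span_range_iff_exists_fun QBar).mp (hsp.symm ▸ hC'.1 j)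
  choose t ht using ht
  let T : Matrix κ κ QBar := Matrix.of fun k j => t j k
  have hCT : C' = C * T := by
    ext i j
    have h1 := ht j
    simp only [Finset.smul_sum, smul_smul] at h1
    rw [Finset.sum_comm] at h1
    simp only [← Finset.sum_smul] at h1
    have h2 := hu.fintypeLinearCombination_injective (a₁ := fun i => ∑ k, t j k * C i k)
      (a₂ := fun i => C' i j) (by simpa [Fintype.linearCombination_apply] using h1)
    rw [← congrFun h2 i, Matrix.mul_apply]
    exact Finset.sum_congr rfl fun k _ => mul_comm _ _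
  have h3 := hC'.2
  rw [hCT, ← Matrix.mul_assoc, hC.2, Matrix.one_mul] at h3
  rw [hCT, h3, Matrix.mul_one]

end Unique

section Reg

variable {A : ValuationSubring QBar} {F : Type*} [Field F] [Algebra QBar F]
  {Fk : Type*} [Field Fk] [Algebra (ResidueField A) Fk]
  [IsFunctionField QBar F] [IsFunctionField (ResidueField A) Fk]
  {h : GoodRed A F Fk} {Ω : Type*} {R : Subalgebra A (Ω → QBar)}

/-- Pulling back a regular family. -/
theorem IsReg.comp {Ω' : Type*} {R' : Subalgebra A (Ω' → QBar)} {G : Ω → Divisor QBar F}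
    {Gb : Divisor (ResidueField A) Fk} (hG : IsReg h R G Gb) (π : Ω' → Ω)
    (hπ : ∀ r ∈ R, r ∘ π ∈ R') : IsReg h R' (G ∘ π) Gb := by
  intro x hx
  obtain ⟨φ, hφ, hφ'⟩ := hG x hx
  refine ⟨φ ∘ π, ?_, fun ω => hφ' (π ω)⟩
  clear hφ'
  induction hφ using AddSubmonoid.closure_induction with
  | mem φ hφ =>
    obtain ⟨r, hr, e, rfl⟩ := hφ
    exact AddSubmonoid.subset_closure ⟨r ∘ π, hπ r hr, e, rfl⟩
  | zero => exact zero_mem _
  | add a b _ _ iha ihb => exact add_mem iha ihb

variable {n m : ℕ}

/-- A regular family has normalised coordinates in `R`. -/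
theorem exists_coords_of_isReg [Finite Ω] [Nonempty Ω] (hR : HasIntValues R) (u : Fin n → h.S)
    (hu : LinearIndependent (ResidueField A) fun i => redF h.toRedLattice (u i))
    {E : Divisor QBar F}
    (huE : Submodule.span QBar (Set.range fun i => (u i : F)) = riemannRochSpace E)
    {X : Ω → Divisor QBar F} (hX : ∀ ω, 0 ≤ X ω) {Gb : Divisor (ResidueField A) Fk}
    (hreg : IsReg h R (fun ω => E - X ω) Gb)
    {Cb : Matrix (Fin n) (Fin m) (ResidueField A)}
    (hCb : ∀ j, ∑ i, Cb i j • redF h.toRedLattice (u i) ∈ riemannRochSpace Gb)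
    (Lt : Matrix (Fin m) (Fin n) A) (hLt : Lt.map (residue A) * Cb = 1) :
    ∃ C : Matrix (Fin n) (Fin m) R, (∀ ω, IsCoords (riemannRochSpace (E - X ω))
      (fun i => (u i : F)) Lt (C.map (evalQ R ω))) ∧ ∀ ω, C.map (resAt hR ω) = Cb := by
  classical
  choose φ hφ hφ' using fun j => hreg _ (hCb j)
  choose hφG hφS hφred using hφ'
  obtain ⟨d, v, P, hv, hP⟩ := exists_frame_secs
    (Sum.elim φ (fun i => fun _ : Ω => (u i : F))) (fun t => by
      rcases t with t | t
      · exact hφ t
      · exact const_mem_secs (u t))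
  set Pφ : Matrix (Fin d) (Fin m) R := Matrix.of fun a j => P a (Sum.inl j)
  set Pu : Matrix (Fin d) (Fin n) R := Matrix.of fun a i => P a (Sum.inr i)
  have hvQ : LinearIndependent QBar fun a => (v a : F) :=
    linearIndependent_of_redF h.toRedLattice v hv
  obtain ⟨ω₀⟩ := ‹Nonempty Ω›
  have uniq : ∀ {x y : Fin d → ResidueField A}, ∑ e, x e • redF h.toRedLattice (v e) =
      ∑ e, y e • redF h.toRedLattice (v e) → x = y := fun {x y} hxy =>
    hv.fintypeLinearCombination_injective (by simpa [Fintype.linearCombination_apply] using hxy)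
  have redu : ∀ ω i, redF h.toRedLattice (u i) =
      ∑ a, resAt hR ω (Pu a i) • redF h.toRedLattice (v a) := fun ω i => by
    obtain ⟨hm, hr⟩ := redF_sum_smul (h := h) hR ω (fun a => Pu a i) v
    rw [← hr]
    exact congrArg _ (Subtype.ext (hP (Sum.inr i) ω))
  set Ub := Pu.map (resAt hR ω₀) with hUb
  have hUc : ∀ ω, Pu.map (resAt hR ω) = Ub := fun ω => Matrix.ext fun a i =>
    congrFun (uniq (x := fun a => resAt hR ω (Pu a i)) (y := fun a => resAt hR ω₀ (Pu a i))
      ((redu ω i).symm.trans (redu ω₀ i))) a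
  have hinjU : Function.Injective Ub.mulVec := by
    intro x y hxy
    refine hu.fintypeLinearCombination_injective ?_
    have key : ∀ z, Fintype.linearCombination (ResidueField A) (fun i => redF h.toRedLattice (u i)) z =
        ∑ a, (Ub *ᵥ z) a • redF h.toRedLattice (v a) := fun z => by
      rw [Fintype.linearCombination_apply]
      simp only [redu ω₀, Finset.smul_sum, smul_smul, Matrix.mulVec, dotProduct, Finset.sum_smul,
        hUb, Matrix.map_apply]
      rw [Finset.sum_comm]
      exact Finset.sum_congr rfl fun e _ => Finset.sum_congr rfl fun i _ => by rw [mul_comm]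
    rw [key, key, hxy]
  obtain ⟨Kb, hKb⟩ := exists_left_inverse hinjU
  set K0 : Matrix (Fin n) (Fin d) R := constMat Kb with hK0
  have hN1 : ∀ ω, (K0 * Pu).map (resAt hR ω) = 1 := fun ω => by
    rw [Matrix.map_mul, resAt_constMat, hUc, hKb]
  have hN := isUnit_matrix hR (K0 * Pu) hN1
  set K := (K0 * Pu)⁻¹ * K0 with hKdef
  have hKPu : K * Pu = 1 := by
    rw [hKdef, Matrix.mul_assoc, Matrix.nonsing_inv_mul _ ((Matrix.isUnit_iff_isUnit_det _).mp hN)]
  set C0 := K * Pφ with hC0def
  -- the coordinates of the sections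
  have hC0 : ∀ ω j, φ j ω = ∑ i, (C0 i j : Ω → QBar) ω • (u i : F) := by
    intro ω j
    have hmem : φ j ω ∈ Submodule.span QBar (Set.range fun i => (u i : F)) := by
      rw [huE]
      exact riemannRochSpace_mono (sub_le_self _ (hX ω)) (hφG j ω)
    obtain ⟨c, hc⟩ := (Submodule.mem_span_range_iff_exists_fun QBar).mp hmem
    rw [← hc]
    have h1 : (Pu.map (evalQ R ω)) *ᵥ c = fun a => evalQ R ω (Pφ a j) := by
      refine hvQ.fintypeLinearCombination_injective ?_
      simp only [Fintype.linearCombination_apply, Matrix.mulVec, dotProduct, Matrix.map_apply,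
        Finset.sum_smul]
      refine Eq.trans ?_ (hP (Sum.inl j) ω)
      show _ = φ j ω
      rw [← hc, Finset.sum_comm]
      refine Finset.sum_congr rfl fun i _ => ?_
      conv_rhs => rw [show (u i : F) = _ from hP (Sum.inr i) ω, Finset.smul_sum]
      exact Finset.sum_congr rfl fun a _ => by rw [smul_smul, mul_comm]; rfl
    have h2 : c = (K.map (evalQ R ω)) *ᵥ fun a => evalQ R ω (Pφ a j) := by
      rw [← h1, Matrix.mulVec_mulVec, ← Matrix.map_mul, hKPu,
        Matrix.map_one _ (map_zero _) (map_one _), Matrix.one_mulVec]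
    refine Finset.sum_congr rfl fun i _ => ?_
    congr 1
    have h3 := congrFun h2 i
    rw [h3, ← evalQ_apply R ω (C0 i j), hC0def, Matrix.mul_apply, map_sum]
    simp only [Matrix.mulVec, dotProduct, Matrix.map_apply, map_mul]
  have hC0res : ∀ ω, C0.map (resAt hR ω) = Cb := fun ω => Matrix.ext fun i j => by
    obtain ⟨hm, hr⟩ := redF_sum_smul (h := h) hR ω (fun i => C0 i j) u
    have h4 : ∑ i, resAt hR ω (C0 i j) • redF h.toRedLattice (u i) =
        ∑ i, Cb i j • redF h.toRedLattice (u i) := by
      rw [← hr, ← hφred j ω]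
      exact congrArg _ (Subtype.ext (hC0 ω j).symm)
    exact congrFun (hu.fintypeLinearCombination_injective
      (a₁ := fun i => resAt hR ω (C0 i j)) (a₂ := fun i => Cb i j)
      (by simpa [Fintype.linearCombination_apply] using h4)) i
  -- normalisation
  set LtR : Matrix (Fin m) (Fin n) R := Lt.map (algebraMap A R) with hLtR
  have hM1 : ∀ ω, (LtR * C0).map (resAt hR ω) = 1 := fun ω => by
    rw [Matrix.map_mul, hC0res, ← hLt]
    congr 1
  have hM := isUnit_matrix hR (LtR * C0) hM1
  refine ⟨C0 * (LtR * C0)⁻¹, fun ω => ⟨fun j => ?_, ?_⟩, fun ω => ?_⟩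
  · have hkey : ∑ i, (C0 * (LtR * C0)⁻¹).map (evalQ R ω) i j • (u i : F) =
        ∑ k, ((LtR * C0)⁻¹.map (evalQ R ω)) k j • φ k ω := by
      simp only [hC0, Finset.smul_sum, smul_smul, Matrix.map_apply, Matrix.mul_apply, map_sum,
        map_mul, Finset.sum_smul]
      rw [Finset.sum_comm]
      exact Finset.sum_congr rfl fun k _ => Finset.sum_congr rfl fun i _ => by
        rw [mul_comm]; rfl
    rw [hkey]
    exact sum_mem fun k _ => Submodule.smul_mem _ _ (hφG k ω)
  · have e : Lt.map A.subtype = LtR.map (evalQ R ω) := by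
      ext a b
      rfl
    rw [e, ← Matrix.map_mul, ← Matrix.mul_assoc, Matrix.mul_nonsing_inv _
      ((Matrix.isUnit_iff_isUnit_det _).mp hM), Matrix.map_one _ (map_zero _) (map_one _)]
  · rw [Matrix.map_mul, hC0res, map_inv_eq_one (resAt hR ω) hM (hM1 ω), Matrix.mul_one]

/-- A family with coordinates in `R` is regular. -/
theorem isReg_of_coords (hR : HasIntValues R) (u : Fin n → h.S)
    {G : Ω → Divisor QBar F} {Gb : Divisor (ResidueField A) Fk}
    {Cb : Matrix (Fin n) (Fin m) (ResidueField A)}
    (hCb : riemannRochSpace Gb ≤ Submodule.span (ResidueField A)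
      (Set.range fun j => ∑ i, Cb i j • redF h.toRedLattice (u i)))
    {Lt : Matrix (Fin m) (Fin n) A} (C : Matrix (Fin n) (Fin m) R)
    (hC : ∀ ω, IsCoords (riemannRochSpace (G ω)) (fun i => (u i : F)) Lt (C.map (evalQ R ω)))
    (hres : ∀ ω, C.map (resAt hR ω) = Cb) : IsReg h R G Gb := by
  intro x hx
  obtain ⟨c, hc⟩ := (Submodule.mem_span_range_iff_exists_fun _).mp (hCb hx)
  set r : Fin n → R := fun i => ∑ j, algebraMap A R (liftRes A (c j)) * C i j with hr
  refine ⟨fun ω => ∑ i, (r i : Ω → QBar) ω • (u i : F), sum_mem_secs _ _ _, fun ω => ⟨?_, ?_⟩⟩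
  · have hkey : ∑ i, (r i : Ω → QBar) ω • (u i : F) =
        ∑ j, ((liftRes A (c j) : A) : QBar) • ∑ i, C.map (evalQ R ω) i j • (u i : F) := by
      simp only [hr, ← evalQ_apply, map_sum, map_mul, Finset.sum_smul, Finset.smul_sum, smul_smul,
        Matrix.map_apply]
      rw [Finset.sum_comm]
      rfl
    show ∑ i, (r i : Ω → QBar) ω • (u i : F) ∈ _
    rw [hkey]
    exact sum_mem fun j _ => Submodule.smul_mem _ _ ((hC ω).1 j)
  · obtain ⟨hm, hred⟩ := redF_sum_smul (h := h) hR ω r u
    refine ⟨hm, hred.trans ?_⟩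
    rw [← hc]
    simp only [hr, map_sum, map_mul, resAt_algebraMap, residue_liftRes, Finset.sum_smul,
      Finset.smul_sum, smul_smul]
    rw [Finset.sum_comm]
    refine Finset.sum_congr rfl fun j _ => Finset.sum_congr rfl fun i _ => ?_
    rw [← congrFun (congrFun (hres ω) i) j, Matrix.map_apply]

end Reg

end Fermat.Agent.FiniteFlat
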