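import Fermat.Agent.FiniteFlat.Fixed
import Fermat.Agent.FiniteFlat.RegCoords

/-!
# The decomposition group on the lattice of `X₀(N)`

Automorphisms stabilising `A` preserve the lattice and the kernel of its reduction, hence carry
regular families to regular families.
-/

set_option autoImplicit false
set_option maxHeartbeats 1000000
set_option synthInstance.maxHeartbeats 400000
set_option linter.unusedSectionVars false

noncomputable section

open IsLocalRing AlgebraicCurve ModularCurve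
open Fermat.Agent.Arith Fermat.Agent.FF Fermat.Agent.RedTorsion Fermat.Agent.EichlerShimura
open scoped Pointwise

namespace Fermat.Agent.FiniteFlat

variable {A : ValuationSubring QBar}

theorem inv_smul_eq_self {σ : GQ} (hd : σ • A = A) : σ⁻¹ • A = A := inv_smul_eq_iff.mpr hd.symm

theorem apply_mem_nonunits {σ : GQ} (hd : σ • A = A) {x : QBar} (hx : x ∈ A.nonunits) :
    σ x ∈ A.nonunits := by
  by_contra h
  have hxA := mem_of_mem_nonunits hx
  obtain ⟨h0, hinv⟩ := (notMem_nonunits_iff (map_mem_of_mem_decomposition hd hxA)).mp h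
  have h1 := map_mem_of_mem_decomposition (inv_smul_eq_self hd) hinv
  rw [map_inv₀, show (σ⁻¹ : GQ) (σ x) = x by
    rw [← AlgEquiv.mul_apply, inv_mul_cancel, AlgEquiv.one_apply]] at h1
  exact (notMem_nonunits_iff hxA).mpr ⟨fun e => h0 (by rw [e, map_zero]), h1⟩ hx

variable {N : ℕ} [NeZero N] (hNA : (N : ResidueField A) ≠ 0)

local notation "Fb" => modularFunctionFieldBar N
local notation "Fk" => modularFunctionFieldFullC (ResidueField A) N

theorem galF_inv (σ : GQ) : galF N σ⁻¹ = (galF N σ)⁻¹ := map_inv _ σ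

theorem serRed_eq_zero_iff (p : serInt A) :
    serRed A p = 0 ↔ ∀ k, (p : LaurentSeries QBar).coeff k ∈ A.nonunits := by
  constructor
  · intro h k
    have := coeff_serRed p k
    rw [h, HahnSeries.coeff_zero] at this
    exact ValuationSubring.coe_mem_nonunits_iff.mpr ((IsLocalRing.residue_eq_zero_iff _).mp this.symm)
  · intro h
    ext k
    rw [coeff_serRed, HahnSeries.coeff_zero, IsLocalRing.residue_eq_zero_iff,
      ← ValuationSubring.coe_mem_nonunits_iff]
    exact h k

theorem coeffMap_mem_serInt {σ : GQ} (hd : σ • A = A) {p : LaurentSeries QBar} (hp : p ∈ serInt A) :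
    coeffMap (σ : QBar →+* QBar) p ∈ serInt A :=
  mem_serInt.mpr fun k => by
    rw [coeffMap_coeff]
    exact map_mem_of_mem_decomposition hd (mem_serInt.mp hp k)

theorem serRed_coeffMap_ne_zero {σ : GQ} (hd : σ • A = A) {p : serInt A} (hp : serRed A p ≠ 0) :
    serRed A ⟨_, coeffMap_mem_serInt hd p.2⟩ ≠ 0 := by
  rw [Ne, serRed_eq_zero_iff] at hp ⊢
  intro h
  refine hp fun k => ?_
  have h1 := apply_mem_nonunits (inv_smul_eq_self hd) (h k)
  rw [coeffMap_coeff] at h1
  simpa [← AlgEquiv.mul_apply] using h1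

theorem galF_mem_lattice {σ : GQ} (hd : σ • A = A) (z : (goodRed hNA).S) :
    ∃ hm : galF N σ • (z : Fb) ∈ (goodRed hNA).S,
      (redF (goodRed hNA).toRedLattice z = 0 →
        redF (goodRed hNA).toRedLattice ⟨_, hm⟩ = 0) := by
  haveI : IsAlgClosed (ResidueField A) := residueField_isAlgClosed A
  obtain ⟨d, p, hd0, hzd⟩ := exists_series_frac hNA z
  set d' : serInt A := ⟨_, coeffMap_mem_serInt hd d.2⟩
  set p' : serInt A := ⟨_, coeffMap_mem_serInt hd p.2⟩
  have hd' : serRed A d' ≠ 0 := serRed_coeffMap_ne_zero hd hd0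
  have hzd' : ((galF N σ • (z : Fb) : Fb) : LaurentSeries QBar) * d' = p' := by
    rw [coe_galF_smul]
    show _ * coeffMap (σ : QBar →+* QBar) (d : LaurentSeries QBar) = coeffMap _ (p : LaurentSeries QBar)
    rw [← map_mul, hzd]
  obtain ⟨hm, hr⟩ := mem_model_S_of_mul_eq (F := Fb) hFb hNA hd' hzd'
  refine ⟨hm, fun h0 => Subtype.ext (mul_right_cancel₀ hd' ?_)⟩
  refine Eq.trans hr ?_
  rw [ZeroMemClass.coe_zero, zero_mul, serRed_eq_zero_iff]
  intro k
  have h1 := redF_mul_eq hNA z hd0 hzd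
  rw [show redF (lattice hNA) z = 0 from h0, ZeroMemClass.coe_zero, zero_mul] at h1
  show (coeffMap (σ : QBar →+* QBar) (p : LaurentSeries QBar)).coeff k ∈ _
  rw [coeffMap_coeff]
  exact apply_mem_nonunits hd ((serRed_eq_zero_iff p).mp h1.symm k)

theorem galF_redF_congr {σ : GQ} (hd : σ • A = A) {z z' : (goodRed hNA).S}
    (h : redF (goodRed hNA).toRedLattice z = redF (goodRed hNA).toRedLattice z') :
    redF (goodRed hNA).toRedLattice ⟨_, (galF_mem_lattice hNA hd z).1⟩ =
      redF (goodRed hNA).toRedLattice ⟨_, (galF_mem_lattice hNA hd z').1⟩ := by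
  obtain ⟨hm, h0⟩ := galF_mem_lattice hNA hd (z - z')
  rw [← sub_eq_zero, ← map_sub]
  have h1 := h0 (by rw [map_sub, h, sub_self])
  refine Eq.trans (congrArg _ (Subtype.ext ?_)) h1
  simp only [AddSubgroupClass.coe_sub, smul_sub]

/-- The functions transformed by `σ`. -/
def galRing {Ω : Type*} {σ : GQ} (hd : σ • A = A) (R : Subalgebra A (Ω → QBar)) :
    Subalgebra A (Ω → QBar) where
  carrier := {f | ∃ r ∈ R, f = fun ω => σ (r ω)}
  mul_mem' := by
    rintro _ _ ⟨r, hr, rfl⟩ ⟨s, hs, rfl⟩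
    exact ⟨r * s, mul_mem hr hs, funext fun ω => (map_mul σ _ _).symm⟩
  add_mem' := by
    rintro _ _ ⟨r, hr, rfl⟩ ⟨s, hs, rfl⟩
    exact ⟨r + s, add_mem hr hs, funext fun ω => (map_add σ _ _).symm⟩
  algebraMap_mem' a := by
    refine ⟨algebraMap A (Ω → QBar)
      ⟨σ⁻¹ (a : QBar), map_mem_of_mem_decomposition (inv_smul_eq_self hd) a.2⟩,
      R.algebraMap_mem _, funext fun ω => ?_⟩
    show (a : QBar) = σ (σ⁻¹ (a : QBar))
    rw [← AlgEquiv.mul_apply, mul_inv_cancel, AlgEquiv.one_apply]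

theorem mem_galRing {Ω : Type*} {σ : GQ} {hd : σ • A = A} {R : Subalgebra A (Ω → QBar)}
    {f : Ω → QBar} : f ∈ galRing hd R ↔ ∃ r ∈ R, f = fun ω => σ (r ω) :=
  Iff.rfl

theorem hasIntValues_galRing {Ω : Type*} {σ : GQ} (hd : σ • A = A) {R : Subalgebra A (Ω → QBar)}
    (hR : HasIntValues R) : HasIntValues (galRing hd R) := by
  rintro ⟨_, r, hr, rfl⟩ ω
  exact map_mem_of_mem_decomposition hd (hR ⟨r, hr⟩ ω)

variable [IsFunctionField QBar (modularFunctionFieldBar N)]
  [IsFunctionField (ResidueField A) (modularFunctionFieldFullC (ResidueField A) N)]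

/-- The decomposition group carries regular families to regular families. -/
theorem IsReg.galF_smul {Ω : Type*} [Nonempty Ω] {σ : GQ} (hd : σ • A = A)
    {R : Subalgebra A (Ω → QBar)} {E : Divisor QBar Fb}
    (hE : galF N σ • E = E) {X : Ω → Divisor QBar Fb} {Xb : Divisor (ResidueField A) Fk}
    (hXd : ∀ ω, bigDeg (goodRed hNA) ≤ Divisor.degree (galF N σ • (E - X ω)))
    (hXd' : ∀ ω, bigDeg (goodRed hNA) ≤ Divisor.degree (E - X ω))
    (hXr : ∀ ω, redDiv (goodRed hNA) (X ω) = Xb)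
    (hreg : IsReg (goodRed hNA) R (fun ω => E - X ω) (redDiv (goodRed hNA) E - Xb)) :
    ∃ Yb : Divisor (ResidueField A) Fk,
      (∀ ω, redDiv (goodRed hNA) (galF N σ • X ω) = Yb) ∧
      IsReg (goodRed hNA) (galRing hd R) (fun ω => E - galF N σ • X ω)
        (redDiv (goodRed hNA) E - Yb) := by
  set h := goodRed (A := A) hNA
  have hsmul : ∀ ω, galF N σ • (E - X ω) = E - galF N σ • X ω := fun ω => by rw [smul_sub, hE]
  have key : ∀ ω, ∀ x ∈ riemannRochSpace (redDiv h (galF N σ • (E - X ω))),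
      ∃ φ ∈ secs h.toRedLattice (galRing hd R), ∀ ω',
        φ ω' ∈ riemannRochSpace (galF N σ • (E - X ω')) ∧
        ∃ hm : φ ω' ∈ h.S, redF h.toRedLattice ⟨_, hm⟩ = x := by
    intro ω x hx
    rw [← redW_riemannRochSpace h (hXd ω)] at hx
    obtain ⟨f, hf, rfl⟩ := hx
    obtain ⟨hm, -⟩ := galF_mem_lattice hNA (inv_smul_eq_self hd) f
    have hf' : galF N σ⁻¹ • (f : Fb) ∈ riemannRochSpace (E - X ω) := by
      have := galF_mem_riemannRochSpace σ⁻¹ hf
      rwa [galF_inv, inv_smul_smul] at this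
    have hy : redF h.toRedLattice ⟨_, hm⟩ ∈ riemannRochSpace (redDiv h E - Xb) := by
      rw [← hXr ω, ← map_sub, ← redW_riemannRochSpace h (hXd' ω)]
      exact redF_mem_redW h.toRedLattice _ hf'
    obtain ⟨φ, hφ, hφ'⟩ := hreg _ hy
    refine ⟨fun ω' => galF N σ • φ ω', ?_, fun ω' => ?_⟩
    · clear hφ'
      induction hφ using AddSubmonoid.closure_induction with
      | mem φ hφ =>
        obtain ⟨r, hr, e, rfl⟩ := hφ
        exact AddSubmonoid.subset_closure ⟨fun ω => σ (r ω), ⟨r, hr, rfl⟩,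
          ⟨_, (galF_mem_lattice hNA hd e).1⟩, funext fun ω => galF_smul_smul σ _ _⟩
      | zero => convert zero_mem (secs h.toRedLattice (galRing hd R)) using 1
                exact funext fun ω => smul_zero _
      | add a b _ _ iha ihb => convert add_mem iha ihb using 1; exact funext fun ω => smul_add _ _ _
    · obtain ⟨h1, h2, h3⟩ := hφ' ω'
      refine ⟨galF_mem_riemannRochSpace σ h1, (galF_mem_lattice hNA hd ⟨_, h2⟩).1, ?_⟩
      refine (galF_redF_congr hNA hd h3).trans (congrArg _ (Subtype.ext ?_))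
      show galF N σ • galF N σ⁻¹ • (f : Fb) = f
      rw [galF_inv, smul_inv_smul]
  have hb := rrBound_lt_bigDeg h
  obtain ⟨ω₀⟩ := ‹Nonempty Ω›
  have hle : ∀ ω ω', riemannRochSpace (redDiv h (galF N σ • (E - X ω))) ≤
      riemannRochSpace (redDiv h (galF N σ • (E - X ω'))) := fun ω ω' x hx => by
    obtain ⟨φ, -, hφ⟩ := key ω x hx
    obtain ⟨h1, hm, h2⟩ := hφ ω'
    rw [← redW_riemannRochSpace h (hXd ω'), ← h2]
    exact redF_mem_redW h.toRedLattice _ h1
  have hconst : ∀ ω, redDiv h (galF N σ • X ω) = redDiv h (galF N σ • X ω₀) := fun ω => by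
    have hdeg : ∀ ω, rrBound h + 1 ≤ Divisor.degree (redDiv h (galF N σ • (E - X ω))) := fun ω => by
      rw [degree_redDiv]
      have := hXd ω
      omega
    have h1 := le_antisymm
      (le_of_riemannRochSpace_le (fun _ => ell_eq_of_rrBound_le' h) (hdeg ω) (hle ω ω₀))
      (le_of_riemannRochSpace_le (fun _ => ell_eq_of_rrBound_le' h) (hdeg ω₀) (hle ω₀ ω))
    rw [hsmul, hsmul, map_sub, map_sub] at h1
    exact sub_right_injective h1
  refine ⟨_, hconst, fun x hx => ?_⟩
  rw [← map_sub, ← hsmul] at hx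
  obtain ⟨φ, hφ, hφ'⟩ := key ω₀ x hx
  refine ⟨φ, hφ, fun ω => ?_⟩
  obtain ⟨h1, h2⟩ := hφ' ω
  rw [hsmul] at h1
  exact ⟨h1, h2⟩

end Fermat.Agent.FiniteFlat
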