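import Fermat.Agent.FiniteFlat.Operation

/-!
# Reduction of divisor classes

A function field with good reduction has a reduction homomorphism on classes of degree zero.
-/

set_option autoImplicit false
set_option maxHeartbeats 1000000
set_option synthInstance.maxHeartbeats 400000
set_option linter.unusedSectionVars false

noncomputable section

open IsLocalRing AlgebraicCurve
open Fermat.Agent.Arith Fermat.Agent.FF

namespace Fermat.Agent.FiniteFlat

section Classes

variable {K E : Type*} [Field K] [Field E] [Algebra K E] [IsFunctionField K E]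

theorem div_mem_principal {f : E} (hf : f ≠ 0) :
    div K f ∈ Divisor.principal (K := K) (F := E) :=
  ⟨f, hf, fun v => div_apply f v⟩

theorem exists_div_of_mem_principal {D : Divisor K E}
    (hD : D ∈ Divisor.principal (K := K) (F := E)) : ∃ f : E, f ≠ 0 ∧ D = div K f := by
  obtain ⟨f, hf, hf'⟩ := hD
  exact ⟨f, hf, Finsupp.ext fun v => by rw [hf', div_apply]⟩

theorem pic0_mk_eq_iff {D D' : Divisor.degZero (K := K) (F := E)} :
    Pic0.mk D = Pic0.mk D' ↔ ∃ f : E, f ≠ 0 ∧ (D : Divisor K E) = D' + div K f := by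
  rw [Pic0.mk, Pic0.mk, QuotientAddGroup.eq_iff_sub_mem, AddSubgroup.mem_addSubgroupOf,
    AddSubgroupClass.coe_sub]
  constructor
  · intro h
    obtain ⟨f, hf, he⟩ := exists_div_of_mem_principal h
    exact ⟨f, hf, by rw [← he]; abel⟩
  · rintro ⟨f, hf, he⟩
    rw [he, add_sub_cancel_left]
    exact div_mem_principal hf

end Classes

variable {A : ValuationSubring QBar} {F : Type*} [Field F] [Algebra QBar F]
  {Fk : Type*} [Field Fk] [Algebra (ResidueField A) Fk]
  [IsFunctionField QBar F] [IsFunctionField (ResidueField A) Fk] (h : GoodRed A F Fk)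

theorem exists_redDiv_div {f : F} (hf : f ≠ 0) :
    ∃ g : Fk, g ≠ 0 ∧ redDiv h (div QBar f) = div (ResidueField A) g := by
  obtain ⟨c, g, hc, hg, rfl⟩ := exists_primitive h.toRedLattice hf
  refine ⟨_, hg, ?_⟩
  rw [div_smul hc (fun e => hf (by rw [e, smul_zero]))]
  exact redDiv_div h g hg

/-- Reduction of divisors of degree zero. -/
def redDiv0 : Divisor.degZero (K := QBar) (F := F) →+
    Divisor.degZero (K := ResidueField A) (F := Fk) :=
  ((redDiv h).comp (AddSubgroup.subtype _)).codRestrict _ fun D => Divisor.mem_degZero.mpr (by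
    rw [AddMonoidHom.comp_apply, AddSubgroup.subtype_apply, degree_redDiv]; exact D.2)

theorem coe_redDiv0 (D : Divisor.degZero (K := QBar) (F := F)) :
    (redDiv0 h D : Divisor (ResidueField A) Fk) = redDiv h D := rfl

/-- Reduction of classes of degree zero. -/
def redCls : Pic0 QBar F →+ Pic0 (ResidueField A) Fk :=
  QuotientAddGroup.lift _ ((QuotientAddGroup.mk' _).comp (redDiv0 h)) fun D hD => by
    rw [AddMonoidHom.mem_ker, AddMonoidHom.comp_apply, QuotientAddGroup.mk'_apply,
      QuotientAddGroup.eq_zero_iff, AddSubgroup.mem_addSubgroupOf, coe_redDiv0]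
    obtain ⟨f, hf, he⟩ := exists_div_of_mem_principal (AddSubgroup.mem_addSubgroupOf.mp hD)
    obtain ⟨g, hg, hg'⟩ := exists_redDiv_div h hf
    rw [he, hg']
    exact div_mem_principal hg

theorem redCls_mk (D : Divisor.degZero (K := QBar) (F := F)) :
    redCls h (Pic0.mk D) = Pic0.mk (redDiv0 h D) := rfl

variable {h}

/-- Equivalent effective divisors with unique reduced representative reduce equally. -/
theorem redDiv_eq_of_equiv {D D' : Divisor QBar F} (hD : 0 ≤ D) (hD' : 0 ≤ D')
    (h1 : ell (ResidueField A) (redDiv h D) = 1) {f : F} (hf : f ≠ 0) (he : D' = D + div QBar f) :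
    redDiv h D' = redDiv h D := by
  obtain ⟨g, -, hg⟩ := exists_redDiv_div h hf
  exact eq_of_ell_eq_one (redDiv_nonneg h hD) (redDiv_nonneg h hD') h1
    (f := g) (by rw [he, map_add, hg])

theorem ell_eq_one_of_redDiv {D : Divisor QBar F} (hD : 0 ≤ D)
    (h1 : ell (ResidueField A) (redDiv h D) = 1) : ell QBar D = 1 := by
  refine le_antisymm (h1 ▸ ell_le_ell_redDiv h D) ?_
  have hfin : 1 ≤ Module.finrank QBar (riemannRochSpace D) := by
    rw [Nat.one_le_iff_ne_zero]
    intro h0
    have hbot := Submodule.finrank_eq_zero.mp h0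
    have h1' : algebraMap QBar F 1 ∈ riemannRochSpace D := algebraMap_mem_riemannRochSpace hD 1
    rw [hbot, Submodule.mem_bot, map_one] at h1'
    exact one_ne_zero h1'
  unfold ell
  exact_mod_cast hfin

end Fermat.Agent.FiniteFlat
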