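import Fermat.Agent.FiniteFlat.GalLattice
import Fermat.Agent.FiniteFlat.RedClass

/-!
# Divisors representing the points of a finite Galois module in `J₀(N)`

A rational frame of a large Riemann–Roch space, an inertia-fixed base divisor and representatives
with unique reductions of finitely many classes, together with normalised coordinates of the
reduced spaces.
-/

set_option autoImplicit false
set_option maxHeartbeats 1000000
set_option synthInstance.maxHeartbeats 400000
set_option linter.unusedSectionVars false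

noncomputable section

open IsLocalRing AlgebraicCurve ModularCurve
open Fermat.Agent.Arith Fermat.Agent.FF Fermat.Agent.RedTorsion

namespace Fermat.Agent.FiniteFlat

variable {A : ValuationSubring QBar} {N : ℕ} [NeZero N] (hNA : (N : ResidueField A) ≠ 0)
  [IsFunctionField QBar (modularFunctionFieldBar N)]
  [IsFunctionField (ResidueField A) (modularFunctionFieldFullC (ResidueField A) N)]
  {M : Type} [AddCommGroup M]

local notation "Fb" => modularFunctionFieldBar N
local notation "Fk" => modularFunctionFieldFullC (ResidueField A) N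

/-- Representatives of finitely many classes, with a frame. -/
structure Chart (i : M →+ JZero N) where
  /-- the ambient divisor -/
  E : Divisor QBar Fb
  E0 : 0 ≤ E
  Edeg : bigDeg (goodRed (A := A) hNA) + 4 * genusFF QBar Fb ≤ Divisor.degree E
  Efix : ∀ σ : GQ, galF N σ • E = E
  /-- the rank of the frame -/
  n : ℕ
  /-- the frame -/
  u : Fin n → (goodRed (A := A) hNA).S
  uli : LinearIndependent (ResidueField A) fun a => redF (goodRed hNA).toRedLattice (u a)
  uspan : Submodule.span QBar (Set.range fun a => (u a : Fb)) = riemannRochSpace E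
  ured : riemannRochSpace (redDiv (goodRed hNA) E) ≤ Submodule.span (ResidueField A)
    (Set.range fun a => redF (goodRed hNA).toRedLattice (u a))
  ufix : ∀ (σ : GQ) a, galF N σ • (u a : Fb) = u a
  /-- the base divisor -/
  B : Divisor QBar Fb
  B0 : 0 ≤ B
  Bdeg : Divisor.degree B = genusFF QBar Fb
  Bfix : ∀ σ ∈ A.inertiaSubgroupIn ℚ, galF N σ • B = B
  /-- the representatives -/
  D : M → Divisor QBar Fb
  D0 : ∀ x, 0 ≤ D x
  Ddeg : ∀ x, Divisor.degree (D x) = genusFF QBar Fb
  Dcls : ∀ x, ∃ hd : D x - B ∈ Divisor.degZero (K := QBar) (F := Fb),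
    Pic0.mk ⟨D x - B, hd⟩ = i x
  Dell : ∀ x, ell (ResidueField A) (redDiv (goodRed hNA) (D x)) = 1

variable {l : ℕ} (hA : A.LiesOverPrime l) (hl : l.Prime)

include hA hl in
theorem exists_frame (m : ℤ)
    (hm : bigDeg (goodRed (A := A) hNA) ≤ Divisor.degree (m • poleDiv N)) :
    ∃ (n : ℕ) (u : Fin n → (goodRed (A := A) hNA).S),
      LinearIndependent (ResidueField A) (fun a => redF (goodRed hNA).toRedLattice (u a)) ∧
      Submodule.span QBar (Set.range fun a => (u a : Fb)) = riemannRochSpace (m • poleDiv N) ∧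
      riemannRochSpace (redDiv (goodRed hNA) (m • poleDiv N)) ≤ Submodule.span (ResidueField A)
        (Set.range fun a => redF (goodRed hNA).toRedLattice (u a)) ∧
      ∀ (σ : GQ) a, galF N σ • (u a : Fb) = u a := by
  classical
  set h := goodRed (A := A) hNA
  obtain ⟨n₀, fb, hW, hfix, hspan⟩ := exists_rat_basis hA hl hNA m
  rw [redW_riemannRochSpace h hm] at hspan
  obtain ⟨t, ht, htspan, htli⟩ :=
    exists_linearIndependent (ResidueField A) (Set.range fun b => redF h.toRedLattice (fb b))
  haveI : Fintype t := ((Set.finite_range _).subset ht).fintype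
  let e := Fintype.equivFin t
  choose idx hidx using fun a : t => ht a.2
  set u : Fin (Fintype.card t) → h.S := fun a => fb (idx (e.symm a))
  have hu : (fun a => redF h.toRedLattice (u a)) = fun a => ((e.symm a : t) : Fk) :=
    funext fun a => hidx _
  have hrange : Set.range (fun a => redF h.toRedLattice (u a)) = t := by
    rw [hu]
    ext y
    exact ⟨fun ⟨a, ha⟩ => ha ▸ (e.symm a).2, fun hy => ⟨e ⟨y, hy⟩, by simp⟩⟩
  have hli : LinearIndependent (ResidueField A) fun a => redF h.toRedLattice (u a) := by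
    rw [hu]
    exact htli.comp _ e.symm.injective
  have hred : riemannRochSpace (redDiv h (m • poleDiv N)) ≤ Submodule.span (ResidueField A)
      (Set.range fun a => redF h.toRedLattice (u a)) := by
    rw [hrange, htspan]; exact hspan
  refine ⟨_, u, hli, ?_, hred, fun σ a => hfix σ _⟩
  refine Submodule.eq_of_le_of_finrank_le (Submodule.span_le.mpr ?_) ?_
  · rintro _ ⟨a, rfl⟩; exact hW _
  · rw [finrank_span_eq_card (linearIndependent_of_redF h.toRedLattice u hli)]
    have h1 := ell_eq_finrank_redW h (m • poleDiv N)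
    unfold ell at h1
    haveI : Module.Finite (ResidueField A) (Submodule.span (ResidueField A)
        (Set.range fun a => redF h.toRedLattice (u a))) :=
      Module.Finite.span_of_finite _ (Set.finite_range _)
    have h2 := Submodule.finrank_mono (R := ResidueField A)
      (show redW h.toRedLattice (riemannRochSpace (m • poleDiv N)) ≤ Submodule.span (ResidueField A)
        (Set.range fun a => redF h.toRedLattice (u a)) by rw [redW_riemannRochSpace h hm]; exact hred)
    rw [finrank_span_eq_card hli] at h2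
    omega

include hA hl in
theorem exists_fixed_lift_divisor {Bb : Divisor (ResidueField A) Fk} (hBb : 0 ≤ Bb)
    (hoff : ∀ Q, Bb Q ≠ 0 → redDiv (goodRed hNA) (poleDiv N) Q = 0) :
    ∃ B : Divisor QBar Fb, 0 ≤ B ∧ redDiv (goodRed hNA) B = Bb ∧
      ∀ σ ∈ A.inertiaSubgroupIn ℚ, galF N σ • B = B := by
  classical
  choose P hP hPfix using fun Q : Bb.support =>
    exists_fixed_place hA hl hNA (hoff Q.1 (Finsupp.mem_support_iff.mp Q.2))
  refine ⟨∑ Q : Bb.support, Finsupp.single (P Q) (Bb Q.1), Finset.sum_nonneg fun Q _ => ?_, ?_,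
    fun σ hσ => ?_⟩
  · exact Finsupp.le_def.mpr fun v => by
      rcases eq_or_ne v (P Q) with rfl | hv
      · rw [Finsupp.single_eq_same]; exact Finsupp.le_def.mp hBb Q.1
      · rw [Finsupp.single_eq_of_ne hv]; rfl
  · rw [map_sum]
    simp only [redDiv_single, hP]
    rw [Finset.univ_eq_attach, Finset.sum_attach Bb.support fun Q => Finsupp.single Q (Bb Q)]
    exact Bb.sum_single
  · rw [Finset.smul_sum]
    exact Finset.sum_congr rfl fun Q _ => by rw [SemilinearAut.smul_single, hPfix Q σ hσ]

include hA hl in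
theorem nonempty_chart [Finite M] (i : M →+ JZero N) : Nonempty (Chart hNA i (A := A)) := by
  classical
  set h := goodRed (A := A) hNA
  set g : ℤ := ((genusFF QBar Fb : ℕ) : ℤ) with hg
  have hd1 := one_le_degree_poleDiv (N := N)
  have hg0 : (0 : ℤ) ≤ g := Int.natCast_nonneg _
  have hb := rrBound_lt_bigDeg h
  have hrr := one_le_rrBound h
  set m : ℤ := bigDeg h + 5 * g with hm
  have hmd : m ≤ m * Divisor.degree (poleDiv N) := le_mul_of_one_le_right (by omega) hd1
  have hdeg : bigDeg h ≤ Divisor.degree (m • poleDiv N) := by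
    rw [map_zsmul, smul_eq_mul]; omega
  obtain ⟨n, u, uli, uspan, ured, ufix⟩ := exists_frame hNA hA hl m hdeg
  choose D₀ hD₀ using fun x : M => Pic0.mk_surjective (i x)
  obtain ⟨Bb, hBb, hBbd, hBbS, hBbell⟩ :=
    exists_generic (fun x => redDiv h (D₀ x : Divisor QBar Fb))
      (fun x => by rw [degree_redDiv]; exact (D₀ x).2)
      (redDiv h (poleDiv N)).finite_support
  obtain ⟨B, hB, hBr, hBfix⟩ := exists_fixed_lift_divisor hNA hA hl hBb fun Q hQ => by
    simpa using hBbS Q hQ
  have hBd : Divisor.degree B = g := by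
    rw [← degree_redDiv h, hBr, hBbd, genusFF_eq_of_goodRed h]
  have key : ∀ x, ∃ D : Divisor QBar Fb, 0 ≤ D ∧ Divisor.degree D = g ∧
      ell (ResidueField A) (redDiv h D) = 1 ∧
      ∃ hd : D - B ∈ Divisor.degZero (K := QBar) (F := Fb), Pic0.mk ⟨D - B, hd⟩ = i x := by
    intro x
    have hx0 : Divisor.degree (D₀ x : Divisor QBar Fb) = 0 := (D₀ x).2
    have hdx : Divisor.degree ((D₀ x : Divisor QBar Fb) + B) = g := by
      rw [map_add, hx0, zero_add, hBd]
    obtain ⟨f, hf, hfD⟩ := exists_effective_of_ell_pos (D := (D₀ x : Divisor QBar Fb) + B)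
      (lt_of_lt_of_le zero_lt_one (one_le_ell_of_degree_eq_genus hdx))
    refine ⟨_, hfD, by rw [map_add, degree_div, add_zero, hdx], ?_, ?_⟩
    · obtain ⟨f', hf', he⟩ := exists_redDiv_div h hf
      rw [map_add, map_add, hBr, he, ell_add_div hf']
      exact hBbell x
    · refine ⟨Divisor.mem_degZero.mpr (by rw [map_sub, map_add, degree_div, add_zero, hdx, hBd,
        sub_self]), ?_⟩
      rw [← hD₀ x]
      exact pic0_mk_eq_iff.mpr ⟨f, hf, by simp only; abel⟩
  choose D hD0 hDd hDell hDcls using key
  exact ⟨{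
    E := m • poleDiv N
    E0 := Finsupp.le_def.mpr fun v => by
      rw [Finsupp.smul_apply, smul_eq_mul, poleDiv, poles_apply]
      exact mul_nonneg (by omega) (le_max_left _ _)
    Edeg := by
      have e : ((genusFF QBar Fb : ℕ) : ℤ) = g := hg.symm
      rw [map_zsmul, smul_eq_mul]
      linarith [hmd, hm]
    Efix := fun σ => galF_smul_mul_poleDiv σ m
    n := n, u := u, uli := uli, uspan := uspan, ured := ured, ufix := ufix
    B := B, B0 := hB, Bdeg := hBd, Bfix := hBfix
    D := D, D0 := hD0, Ddeg := hDd, Dcls := hDcls, Dell := hDell }⟩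

namespace Chart

variable {hNA} {i : M →+ JZero N} (c : Chart (A := A) hNA i)

/-- The reduced representative. -/
def db (x : M) : Divisor (ResidueField A) Fk := redDiv (goodRed hNA) (c.D x)

theorem degree_db (x : M) : Divisor.degree (c.db x) = genusFF QBar Fb := by
  rw [db, degree_redDiv, c.Ddeg]

theorem db_nonneg (x : M) : 0 ≤ c.db x := redDiv_nonneg _ (c.D0 x)

/-- A divisor in the class of a point is equivalent to its representative. -/
theorem equiv_of_cls {x : M} {D : Divisor QBar Fb}
    (h : ∃ hd : D - c.B ∈ Divisor.degZero (K := QBar) (F := Fb), Pic0.mk ⟨D - c.B, hd⟩ = i x) :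
    ∃ f : Fb, f ≠ 0 ∧ D = c.D x + div QBar f := by
  obtain ⟨hd, he⟩ := h
  obtain ⟨hd', he'⟩ := c.Dcls x
  obtain ⟨f, hf, hf'⟩ := pic0_mk_eq_iff.mp (he.trans he'.symm)
  exact ⟨f, hf, sub_left_injective (hf'.trans (sub_add_eq_add_sub _ _ _))⟩

theorem eq_of_cls {x : M} {D : Divisor QBar Fb} (hD : 0 ≤ D)
    (h : ∃ hd : D - c.B ∈ Divisor.degZero (K := QBar) (F := Fb), Pic0.mk ⟨D - c.B, hd⟩ = i x) :
    D = c.D x := by
  obtain ⟨f, -, hf⟩ := c.equiv_of_cls h
  exact eq_of_ell_eq_one (c.D0 x) hD (ell_eq_one_of_redDiv (c.D0 x) (c.Dell x)) hf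

theorem D_zero : c.D 0 = c.B := (c.eq_of_cls c.B0 ⟨by simp, by
  rw [map_zero, ← Pic0.mk_zero]
  exact congrArg Pic0.mk (Subtype.ext (sub_self c.B))⟩).symm

theorem db_eq_of_redCls {x y : M}
    (h : redCls (goodRed hNA) (i x) = redCls (goodRed hNA) (i y)) : c.db x = c.db y := by
  obtain ⟨hd, he⟩ := c.Dcls x
  obtain ⟨hd', he'⟩ := c.Dcls y
  rw [← he, ← he', redCls_mk, redCls_mk] at h
  obtain ⟨g, -, hg'⟩ := pic0_mk_eq_iff.mp h
  rw [coe_redDiv0, coe_redDiv0, map_sub, map_sub] at hg'
  exact eq_of_ell_eq_one (c.db_nonneg y) (c.db_nonneg x) (c.Dell y) (f := g)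
    (sub_left_injective (hg'.trans (sub_add_eq_add_sub _ _ _)))

theorem bigDeg_le_degree_sub {D : Divisor QBar Fb} (hD : Divisor.degree D = genusFF QBar Fb) :
    bigDeg (goodRed hNA) ≤ Divisor.degree (c.E - D) := by
  have := c.Edeg
  rw [map_sub, hD]
  omega

theorem uQ : LinearIndependent QBar fun a => (c.u a : Fb) :=
  linearIndependent_of_redF _ c.u c.uli

/-- The dimension of the spaces attached to the points. -/
def rk (x₀ : M) : ℕ :=
  Module.finrank (ResidueField A) (riemannRochSpace (redDiv (goodRed hNA) c.E - c.db x₀))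

theorem finrank_eq_rk {x₀ : M} {D : Divisor QBar Fb} (hD : Divisor.degree D = genusFF QBar Fb) :
    Module.finrank QBar (riemannRochSpace (c.E - D)) = Fintype.card (Fin (c.rk x₀)) := by
  have hb := rrBound_lt_bigDeg (goodRed (A := A) hNA)
  have := c.bigDeg_le_degree_sub hD
  have h1 := ell_eq_of_rrBound_le (goodRed hNA) (D := c.E - D) (by omega)
  have h2 := ell_eq_of_rrBound_le' (goodRed hNA)
    (D := redDiv (goodRed hNA) c.E - c.db x₀) (by
      rw [map_sub, degree_redDiv, c.degree_db, ← hD, ← map_sub]; omega)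
  rw [map_sub, degree_redDiv, c.degree_db, ← hD, ← map_sub, genusFF_eq_of_goodRed (goodRed hNA)] at h2
  rw [Fintype.card_fin, rk]
  unfold ell at h1 h2
  omega

include hA hl in
theorem exists_reduced_coords (x₀ : M) :
    ∃ (Cb : Matrix (Fin c.n) (Fin (c.rk x₀)) (ResidueField A))
      (Lt : Matrix (Fin (c.rk x₀)) (Fin c.n) A),
      (∀ j, ∑ a, Cb a j • redF (goodRed hNA).toRedLattice (c.u a) ∈
        riemannRochSpace (redDiv (goodRed hNA) c.E - c.db x₀)) ∧
      riemannRochSpace (redDiv (goodRed hNA) c.E - c.db x₀) ≤ Submodule.span (ResidueField A)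
        (Set.range fun j => ∑ a, Cb a j • redF (goodRed hNA).toRedLattice (c.u a)) ∧
      Lt.map (residue A) * Cb = 1 ∧
      ∀ σ ∈ A.inertiaSubgroupIn ℚ, ∀ j a, σ (Lt j a : QBar) = Lt j a := by
  classical
  set k := ResidueField A
  set W := riemannRochSpace (redDiv (goodRed hNA) c.E - c.db x₀)
  let η : Module.Basis (Fin (c.rk x₀)) k W := Module.finBasis k W
  have hη : ∀ j, (η j : Fk) ∈ Submodule.span k
      (Set.range fun a => redF (goodRed hNA).toRedLattice (c.u a)) := fun j =>
    c.ured (riemannRochSpace_mono (sub_le_self _ (c.db_nonneg x₀)) (η j).2)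
  choose cc hcc using fun j => (Submodule.mem_span_range_iff_exists_fun k).mp (hη j)
  let Cb : Matrix (Fin c.n) (Fin (c.rk x₀)) k := Matrix.of fun a j => cc j a
  have hinj : Function.Injective Cb.mulVec := by
    intro z z' hz
    have hind : LinearIndependent k fun j => (η j : Fk) :=
      η.linearIndependent.map' W.subtype (Submodule.ker_subtype _)
    refine hind.fintypeLinearCombination_injective ?_
    have key : ∀ z, Fintype.linearCombination k (fun j => (η j : Fk)) z =
        ∑ a, (Cb.mulVec z) a • redF (goodRed hNA).toRedLattice (c.u a) := fun z => by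
      rw [Fintype.linearCombination_apply]
      simp only [← hcc, Cb, Finset.smul_sum, smul_smul, Matrix.mulVec, dotProduct, Matrix.of_apply,
        Finset.sum_smul]
      rw [Finset.sum_comm]
      refine Finset.sum_congr rfl fun a _ => ?_
      rw [Finset.sum_smul]
      exact Finset.sum_congr rfl fun j _ => by rw [mul_comm]
    rw [key, key, hz]
  obtain ⟨Lb, hLb⟩ := exists_left_inverse hinj
  choose lt hlt hltfix using fun j a => exists_fixed_lift hA hl (Lb j a)
  refine ⟨Cb, Matrix.of lt, fun j => ?_, ?_, ?_, fun σ hσ j a => hltfix j a σ hσ⟩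
  · show ∑ a, cc j a • _ ∈ W
    rw [hcc]
    exact (η j).2
  · intro y hy
    obtain ⟨z, hz⟩ := (Submodule.mem_span_range_iff_exists_fun k).mp
      (η.span_eq.symm ▸ (Submodule.mem_top (x := (⟨y, hy⟩ : W))))
    refine (Submodule.mem_span_range_iff_exists_fun k).mpr ⟨z, ?_⟩
    have h1 := congrArg Subtype.val hz
    simp only [AddSubmonoidClass.coe_finsetSum, SetLike.val_smul] at h1
    rw [← h1]
    exact Finset.sum_congr rfl fun j _ => congrArg (z j • ·) (hcc j)
  · rw [← hLb]
    congr 1
    ext j a
    exact hlt j a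

end Chart

end Fermat.Agent.FiniteFlat
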