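import Fermat.Agent.FiniteFlat.TorsionChart
import Fermat.Agent.FiniteFlat.OfLattice

/-!
# The lattice of functions on a finite Galois module in `J₀(N)`

The normalised coordinates of the spaces `L(E - D_x)` generate an algebra of integral functions
which is stable under decomposition, compatible with the group law and constant modulo the maximal
ideal on reduction classes; hence finite Galois modules in `J₀(N)` carry Galois orders at primes
not dividing `N`.
-/

set_option autoImplicit false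
set_option maxHeartbeats 1000000
set_option synthInstance.maxHeartbeats 400000
set_option linter.unusedSectionVars false

noncomputable section

open IsLocalRing AlgebraicCurve ModularCurve
open Fermat.Agent.Arith Fermat.Agent.FF Fermat.Agent.RedTorsion
open scoped Pointwise Classical

namespace Fermat.Agent.FiniteFlat

variable {A : ValuationSubring QBar}

/-- Composition with a map, as a homomorphism of `A`-algebras. -/
def pullA (A : ValuationSubring QBar) {X Y : Type} (π : X → Y) :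
    (Y → QBar) →ₐ[A] (X → QBar) :=
  Pi.algHom A (fun _ : X => QBar) fun x => Pi.evalAlgHom A (fun _ : Y => QBar) (π x)

@[simp]
theorem pullA_apply {X Y : Type} (π : X → Y) (f : Y → QBar) : pullA A π f = f ∘ π := rfl

variable {N : ℕ} [NeZero N] {hNA : (N : ResidueField A) ≠ 0}
  [IsFunctionField QBar (modularFunctionFieldBar N)]
  [IsFunctionField (ResidueField A) (modularFunctionFieldFullC (ResidueField A) N)]
  {M : Type} [AddCommGroup M] [Finite M] {i : M →+ JZero N}

local notation "Fb" => modularFunctionFieldBar N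
local notation "Fk" => modularFunctionFieldFullC (ResidueField A) N

namespace Chart

variable (c : Chart (A := A) hNA i) {l : ℕ} (hA : A.LiesOverPrime l) (hl : l.Prime)

/-- The reduced coordinates. -/
def Cb (x₀ : M) : Matrix (Fin c.n) (Fin (c.rk x₀)) (ResidueField A) :=
  (c.exists_reduced_coords hA hl x₀).choose

/-- The projection normalising coordinates. -/
def Lt (x₀ : M) : Matrix (Fin (c.rk x₀)) (Fin c.n) A :=
  (c.exists_reduced_coords hA hl x₀).choose_spec.choose

theorem Cb_mem (x₀ : M) (j : Fin (c.rk x₀)) :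
    ∑ a, c.Cb hA hl x₀ a j • redF (goodRed hNA).toRedLattice (c.u a) ∈
      riemannRochSpace (redDiv (goodRed hNA) c.E - c.db x₀) :=
  (c.exists_reduced_coords hA hl x₀).choose_spec.choose_spec.1 j

theorem Cb_span (x₀ : M) :
    riemannRochSpace (redDiv (goodRed hNA) c.E - c.db x₀) ≤ Submodule.span (ResidueField A)
      (Set.range fun j => ∑ a, c.Cb hA hl x₀ a j • redF (goodRed hNA).toRedLattice (c.u a)) :=
  (c.exists_reduced_coords hA hl x₀).choose_spec.choose_spec.2.1

theorem Lt_mul_Cb (x₀ : M) : (c.Lt hA hl x₀).map (residue A) * c.Cb hA hl x₀ = 1 :=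
  (c.exists_reduced_coords hA hl x₀).choose_spec.choose_spec.2.2.1

theorem Lt_fix (x₀ : M) {σ : GQ} (hσ : σ ∈ A.inertiaSubgroupIn ℚ) (j : Fin (c.rk x₀))
    (a : Fin c.n) : σ (c.Lt hA hl x₀ j a : QBar) = c.Lt hA hl x₀ j a :=
  (c.exists_reduced_coords hA hl x₀).choose_spec.choose_spec.2.2.2 σ hσ j a

/-- Normalised coordinates at a point in the class of `x₀`. -/
def IsCoordsAt (x₀ y : M) (C : Matrix (Fin c.n) (Fin (c.rk x₀)) QBar) : Prop :=
  IsCoords (riemannRochSpace (c.E - c.D y)) (fun a => (c.u a : Fb)) (c.Lt hA hl x₀) C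

theorem exists_coordsAt (x₀ y : M) (hy : c.db y = c.db x₀) :
    ∃ C : Matrix (Fin c.n) (Fin (c.rk x₀)) A, c.IsCoordsAt hA hl x₀ y (C.map A.subtype) ∧
      C.map (residue A) = c.Cb hA hl x₀ := by
  set R : Subalgebra A (Unit → QBar) := ⊥
  have hR : HasIntValues R := fun r ω => by
    obtain ⟨a, ha⟩ := Algebra.mem_bot.mp r.2
    rw [← ha]
    exact a.2
  have hreg : IsReg (goodRed hNA) R (fun _ => c.E - c.D y)
      (redDiv (goodRed hNA) c.E - c.db x₀) := by
    rw [← hy, db, ← map_sub]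
    exact isReg_const (c.bigDeg_le_degree_sub (c.Ddeg y))
  obtain ⟨C, hC, hC'⟩ := exists_coords_of_isReg hR c.u c.uli c.uspan
    (X := fun _ => c.D y) (fun _ => c.D0 y) hreg (c.Cb_mem hA hl x₀) (c.Lt hA hl x₀)
    (c.Lt_mul_Cb hA hl x₀)
  exact ⟨C.map (evalA' hR ()), hC (), hC' ()⟩

/-- The coordinate functions. -/
def cf (x₀ : M) (a : Fin c.n) (j : Fin (c.rk x₀)) : M → QBar := fun y =>
  if hy : c.db y = c.db x₀ then ((c.exists_coordsAt hA hl x₀ y hy).choose a j : QBar) else 0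

/-- The indicator of a reduction class. -/
def ind (x₀ : M) : M → QBar := fun y => if c.db y = c.db x₀ then 1 else 0

theorem cf_eq (x₀ y : M) (hy : c.db y = c.db x₀) :
    (Matrix.of fun a j => c.cf hA hl x₀ a j y) =
      (c.exists_coordsAt hA hl x₀ y hy).choose.map A.subtype := by
  ext a j
  simp [cf, hy]

theorem cf_of_ne (x₀ y : M) (hy : c.db y ≠ c.db x₀) (a : Fin c.n) (j : Fin (c.rk x₀)) :
    c.cf hA hl x₀ a j y = 0 := dif_neg hy

theorem isCoordsAt_cf (x₀ y : M) (hy : c.db y = c.db x₀) :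
    c.IsCoordsAt hA hl x₀ y (Matrix.of fun a j => c.cf hA hl x₀ a j y) := by
  rw [c.cf_eq hA hl x₀ y hy]
  exact (c.exists_coordsAt hA hl x₀ y hy).choose_spec.1

theorem coords_unique {x₀ y : M} (hy : c.db y = c.db x₀)
    {C : Matrix (Fin c.n) (Fin (c.rk x₀)) QBar} (hC : c.IsCoordsAt hA hl x₀ y C) :
    C = Matrix.of fun a j => c.cf hA hl x₀ a j y :=
  (c.isCoordsAt_cf hA hl x₀ y hy).eq hC c.uQ (c.finrank_eq_rk (c.Ddeg y))

theorem cf_mem (x₀ : M) (a : Fin c.n) (j : Fin (c.rk x₀)) (y : M) :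
    c.cf hA hl x₀ a j y ∈ A := by
  by_cases hy : c.db y = c.db x₀
  · rw [cf, dif_pos hy]; exact Subtype.coe_prop _
  · rw [c.cf_of_ne hA hl x₀ y hy]; exact zero_mem _

theorem residue_cf (x₀ : M) (a : Fin c.n) (j : Fin (c.rk x₀)) (y : M) (hy : c.db y = c.db x₀) :
    residue A ⟨_, c.cf_mem hA hl x₀ a j y⟩ = c.Cb hA hl x₀ a j := by
  rw [← (c.exists_coordsAt hA hl x₀ y hy).choose_spec.2, Matrix.map_apply]
  exact congrArg _ (Subtype.ext (dif_pos hy))

/-- The generators. -/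
def gens : Set (M → QBar) :=
  Set.range c.ind ∪ ⋃ x₀, Set.range fun p : Fin c.n × Fin (c.rk x₀) => c.cf hA hl x₀ p.1 p.2

/-- The lattice of functions. -/
def lat : Subalgebra A (M → QBar) := Algebra.adjoin A (c.gens hA hl)

theorem ind_mem_lat (x₀ : M) : c.ind x₀ ∈ c.lat hA hl :=
  Algebra.subset_adjoin (Or.inl ⟨x₀, rfl⟩)

theorem cf_mem_lat (x₀ : M) (a : Fin c.n) (j : Fin (c.rk x₀)) :
    c.cf hA hl x₀ a j ∈ c.lat hA hl :=
  Algebra.subset_adjoin (Or.inr (Set.mem_iUnion.mpr ⟨x₀, (a, j), rfl⟩))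

theorem lat_mem_A {f : M → QBar} (hf : f ∈ c.lat hA hl) : ∀ y, f y ∈ A := by
  induction hf using Algebra.adjoin_induction with
  | mem f hf =>
    intro y
    rcases hf with ⟨x₀, rfl⟩ | hf
    · unfold ind; split
      · exact one_mem _
      · exact zero_mem _
    · obtain ⟨x₀, ⟨a, j⟩, rfl⟩ := Set.mem_iUnion.mp hf
      exact c.cf_mem hA hl x₀ a j y
  | algebraMap r => exact fun _ => r.2
  | add f g _ _ hf hg => exact fun y => add_mem (hf y) (hg y)
  | mul f g _ _ hf hg => exact fun y => mul_mem (hf y) (hg y)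

/-- Functions of the lattice are congruent on each reduction class. -/
theorem lat_congr {f : M → QBar} (hf : f ∈ c.lat hA hl) :
    ∀ x y : M, c.db x = c.db y → f x - f y ∈ A.nonunits := by
  induction hf using Algebra.adjoin_induction with
  | mem f hf =>
    intro x y hxy
    rcases hf with ⟨x₀, rfl⟩ | hf
    · rw [show c.ind x₀ x = c.ind x₀ y by simp [ind, hxy], sub_self]
      exact zero_mem _
    · obtain ⟨x₀, ⟨a, j⟩, rfl⟩ := Set.mem_iUnion.mp hf
      show c.cf hA hl x₀ a j x - c.cf hA hl x₀ a j y ∈ A.nonunits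
      by_cases hx : c.db x = c.db x₀
      · exact Arith.residue_eq_iff.mp ((c.residue_cf hA hl x₀ a j x hx).trans
          (c.residue_cf hA hl x₀ a j y (hxy ▸ hx)).symm)
      · rw [c.cf_of_ne hA hl x₀ x hx, c.cf_of_ne hA hl x₀ y (hxy ▸ hx), sub_self]
        exact zero_mem _
  | algebraMap r =>
    intro x y _
    rw [Pi.algebraMap_apply, Pi.algebraMap_apply, sub_self]
    exact zero_mem _
  | add f g _ _ hf hg =>
    intro x y hxy
    rw [show (f + g) x - (f + g) y = (f x - f y) + (g x - g y) by simp only [Pi.add_apply]; ring]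
    exact nonunits_add (hf x y hxy) (hg x y hxy)
  | mul f g hf' hg' hf hg =>
    intro x y hxy
    rw [show (f * g) x - (f * g) y = f x * (g x - g y) + g y * (f x - f y) by
      simp only [Pi.mul_apply]; ring]
    exact nonunits_add (nonunits_mul_left (c.lat_mem_A hA hl hf' x) (hg x y hxy))
      (nonunits_mul_left (c.lat_mem_A hA hl hg' y) (hf x y hxy))

/-- The points in the class of `x₀`. -/
abbrev Cls (x₀ : M) : Type := {y : M // c.db y = c.db x₀}

instance (x₀ : M) : Nonempty (c.Cls x₀) := ⟨⟨x₀, rfl⟩⟩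

/-- The restriction of the lattice to a class. -/
def latAt (x₀ : M) : Subalgebra A (c.Cls x₀ → QBar) :=
  (c.lat hA hl).map (pullA A Subtype.val)

theorem hasIntValues_latAt (x₀ : M) : HasIntValues (c.latAt hA hl x₀) := by
  rintro ⟨_, f, hf, rfl⟩ ω
  exact c.lat_mem_A hA hl hf _

theorem isReg_latAt (x₀ : M) :
    IsReg (goodRed hNA) (c.latAt hA hl x₀) (fun ω => c.E - c.D ω.1)
      (redDiv (goodRed hNA) c.E - c.db x₀) := by
  refine isReg_of_coords (c.hasIntValues_latAt hA hl x₀) c.u (c.Cb_span hA hl x₀)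
    (Lt := c.Lt hA hl x₀) (Matrix.of fun a j => ⟨_, c.cf hA hl x₀ a j, c.cf_mem_lat hA hl x₀ a j,
      rfl⟩) (fun ω => c.isCoordsAt_cf hA hl x₀ ω.1 ω.2) fun ω => ?_
  ext a j
  exact c.residue_cf hA hl x₀ a j ω.1 ω.2

/-- The universal property of the lattice. -/
theorem comp_mem {Ω' : Type} [Finite Ω'] [Nonempty Ω'] {R' : Subalgebra A (Ω' → QBar)}
    (hR : HasIntValues R') (π : Ω' → M) (x₀ : M) (hπ : ∀ ω, c.db (π ω) = c.db x₀)
    (hreg : IsReg (goodRed hNA) R' (fun ω => c.E - c.D (π ω))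
      (redDiv (goodRed hNA) c.E - c.db x₀))
    {f : M → QBar} (hf : f ∈ c.lat hA hl) : f ∘ π ∈ R' := by
  induction hf using Algebra.adjoin_induction with
  | mem f hf =>
    rcases hf with ⟨x₁, rfl⟩ | hf
    · by_cases h1 : c.db x₀ = c.db x₁
      · rw [show c.ind x₁ ∘ π = 1 from funext fun ω => if_pos ((hπ ω).trans h1)]
        exact one_mem _
      · rw [show c.ind x₁ ∘ π = 0 from funext fun ω => if_neg ((hπ ω).trans_ne h1)]
        exact zero_mem _
    · obtain ⟨x₁, ⟨a, j⟩, rfl⟩ := Set.mem_iUnion.mp hf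
      by_cases h1 : c.db x₀ = c.db x₁
      · rw [h1] at hreg
        obtain ⟨C, hC, -⟩ := exists_coords_of_isReg hR c.u c.uli c.uspan
          (X := fun ω => c.D (π ω)) (fun _ => c.D0 _) hreg (c.Cb_mem hA hl x₁) (c.Lt hA hl x₁)
          (c.Lt_mul_Cb hA hl x₁)
        have e : c.cf hA hl x₁ a j ∘ π = (C a j : Ω' → QBar) := funext fun ω =>
          (congrFun (congrFun (c.coords_unique hA hl ((hπ ω).trans h1) (hC ω)) a) j).symm
        rw [show (fun p : Fin c.n × Fin (c.rk x₁) => c.cf hA hl x₁ p.1 p.2) (a, j) ∘ π =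
          (C a j : Ω' → QBar) from e]
        exact (C a j).2
      · rw [show (fun p : Fin c.n × Fin (c.rk x₁) => c.cf hA hl x₁ p.1 p.2) (a, j) ∘ π = 0 from
          funext fun ω => c.cf_of_ne hA hl x₁ _ ((hπ ω).trans_ne h1) a j]
        exact zero_mem _
  | algebraMap r => exact R'.algebraMap_mem r
  | add f g _ _ hf hg => exact add_mem hf hg
  | mul f g _ _ hf hg => exact mul_mem hf hg

/-- Pulling back the lattice along the group operation on regular families. -/
theorem op_mem {Ω' : Type} [Finite Ω'] [Nonempty Ω'] {R' : Subalgebra A (Ω' → QBar)}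
    (hR : HasIntValues R') {X Y T : Ω' → Divisor QBar Fb} {Xb Yb Tb : Divisor (ResidueField A) Fk}
    (hX0 : ∀ ω, 0 ≤ X ω) (hY0 : ∀ ω, 0 ≤ Y ω) (hT0 : ∀ ω, 0 ≤ T ω)
    (hXd : ∀ ω, Divisor.degree (X ω) = genusFF QBar Fb)
    (hYd : ∀ ω, Divisor.degree (Y ω) = genusFF QBar Fb)
    (hTd : ∀ ω, Divisor.degree (T ω) = genusFF QBar Fb)
    (hXr : ∀ ω, redDiv (goodRed hNA) (X ω) = Xb) (hYr : ∀ ω, redDiv (goodRed hNA) (Y ω) = Yb)
    (hTr : ∀ ω, redDiv (goodRed hNA) (T ω) = Tb)
    (hX : IsReg (goodRed hNA) R' (fun ω => c.E - X ω) (redDiv (goodRed hNA) c.E - Xb))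
    (hY : IsReg (goodRed hNA) R' (fun ω => c.E - Y ω) (redDiv (goodRed hNA) c.E - Yb))
    (hT : IsReg (goodRed hNA) R' (fun ω => c.E - T ω) (redDiv (goodRed hNA) c.E - Tb))
    (z : Ω' → M)
    (hz : ∀ ω, ∃ f : Fb, f ≠ 0 ∧ c.D (z ω) = X ω + Y ω - T ω + div QBar f)
    {f : M → QBar} (hf : f ∈ c.lat hA hl) : f ∘ z ∈ R' := by
  obtain ⟨ω₀⟩ := ‹Nonempty Ω'›
  have hdbe : ∀ ω, ∃ g : Fk, g ≠ 0 ∧ c.db (z ω) = Xb + Yb - Tb + div (ResidueField A) g :=
    fun ω => by
      obtain ⟨f, hf, he⟩ := hz ω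
      obtain ⟨g, hg, hg'⟩ := exists_redDiv_div (goodRed hNA) hf
      exact ⟨g, hg, by rw [db, he, map_add, map_sub, map_add, hXr, hYr, hTr, hg']⟩
  have hdbc : ∀ ω, c.db (z ω) = c.db (z ω₀) := fun ω => by
    obtain ⟨g, hg, he⟩ := hdbe ω
    obtain ⟨g₀, hg₀, he₀⟩ := hdbe ω₀
    refine eq_of_ell_eq_one (c.db_nonneg _) (c.db_nonneg _) (c.Dell (z ω₀)) (f := g₀⁻¹ * g) ?_
    rw [he, he₀, FF.div_mul (inv_ne_zero hg₀) hg, FF.div_inv]
    abel
  obtain ⟨D', hD', hreg⟩ := IsReg.exists_op hR c.E0 c.Edeg hX0 hY0 hT0 hXd hYd hTd hXr hYr hTr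
    hX hY hT (c.db_nonneg (z ω₀)) (c.Dell (z ω₀)) (hdbe ω₀)
  refine c.comp_mem hA hl hR z (z ω₀) hdbc ?_ hf
  convert hreg using 1
  funext ω
  obtain ⟨h0, hr, f, hf, he⟩ := hD' ω
  obtain ⟨f', hf', he'⟩ := hz ω
  congr 1
  refine eq_of_ell_eq_one h0 (c.D0 _) (ell_eq_one_of_redDiv (h := goodRed hNA) h0 ?_) (f := f⁻¹ * f') ?_
  · rw [hr]; exact c.Dell (z ω₀)
  · rw [he, he', FF.div_mul (inv_ne_zero hf) hf', FF.div_inv]
    abel

theorem isReg_const_sub {Ω' : Type} {R' : Subalgebra A (Ω' → QBar)} {D : Divisor QBar Fb}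
    (hD : Divisor.degree D = genusFF QBar Fb) :
    IsReg (goodRed hNA) R' (fun _ => c.E - D)
      (redDiv (goodRed hNA) c.E - redDiv (goodRed hNA) D) := by
  rw [← map_sub]
  exact isReg_const (c.bigDeg_le_degree_sub hD)

theorem mul_ind_mem {x₀ : M} {r : c.Cls x₀ → QBar} (hr : r ∈ c.latAt hA hl x₀) {f : M → QBar}
    (h : ∀ y (hy : c.db y = c.db x₀), f y = r ⟨y, hy⟩) :
    c.ind x₀ * f ∈ c.lat hA hl := by
  obtain ⟨g, hg, rfl⟩ := hr
  have e : c.ind x₀ * f = c.ind x₀ * g := funext fun y => by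
    by_cases hy : c.db y = c.db x₀
    · simp only [Pi.mul_apply, h y hy]; rfl
    · simp [ind, hy]
  rw [e]
  exact mul_mem (c.ind_mem_lat hA hl x₀) hg

theorem exists_reps : ∃ reps : Finset M, ∀ y, ∃! x₀, x₀ ∈ reps ∧ c.db y = c.db x₀ := by
  haveI := Fintype.ofFinite M
  let rep : M → M := fun y => (show ∃ x, c.db x = c.db y from ⟨y, rfl⟩).choose
  have hrep : ∀ y, c.db (rep y) = c.db y := fun y =>
    (show ∃ x, c.db x = c.db y from ⟨y, rfl⟩).choose_spec
  have hcong : ∀ x y, c.db x = c.db y → rep x = rep y := fun x y h => by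
    simp only [rep, h]
  refine ⟨Finset.univ.image rep, fun y => ⟨rep y,
    ⟨Finset.mem_image_of_mem _ (Finset.mem_univ y), (hrep y).symm⟩, ?_⟩⟩
  rintro x ⟨hx, hyx⟩
  obtain ⟨z, -, rfl⟩ := Finset.mem_image.mp hx
  rw [hrep] at hyx
  exact hcong _ _ hyx.symm

theorem sum_ind {reps : Finset M} (h : ∀ y, ∃! x₀, x₀ ∈ reps ∧ c.db y = c.db x₀) (y : M) :
    ∑ x₀ ∈ reps, c.ind x₀ y = 1 := by
  obtain ⟨x, ⟨hx, hyx⟩, huniq⟩ := h y
  exact (Finset.sum_eq_single_of_mem (f := fun b => c.ind b y) x hx fun b hb hne =>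
    if_neg fun e => hne (huniq b ⟨hb, e⟩)).trans (if_pos hyx)

theorem mem_lat_of_latAt {f : M → QBar}
    (h : ∀ x₀, (fun ω : c.Cls x₀ => f ω.1) ∈ c.latAt hA hl x₀) : f ∈ c.lat hA hl := by
  obtain ⟨reps, hreps⟩ := c.exists_reps
  have e : f = ∑ x₀ ∈ reps, c.ind x₀ * f := funext fun y => by
    rw [Finset.sum_apply]
    simp only [Pi.mul_apply]
    rw [← Finset.sum_mul, c.sum_ind hreps y, one_mul]
  rw [e]
  exact sum_mem fun x₀ _ => c.mul_ind_mem hA hl (h x₀) fun y hy => rfl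

theorem cls_sub (x : M) : ∃ hd, Pic0.mk (⟨c.D x - c.B, hd⟩ : Divisor.degZero) = i x := c.Dcls x

theorem lat_neg {f : M → QBar} (hf : f ∈ c.lat hA hl) : (fun x => f (-x)) ∈ c.lat hA hl := by
  refine c.mem_lat_of_latAt hA hl fun x₀ => ?_
  refine c.op_mem hA hl (c.hasIntValues_latAt hA hl x₀) (z := fun ω => -ω.1)
    (X := fun _ => c.B) (Y := fun _ => c.B) (T := fun ω => c.D ω.1) (fun _ => c.B0)
    (fun _ => c.B0) (fun _ => c.D0 _) (fun _ => c.Bdeg) (fun _ => c.Bdeg) (fun _ => c.Ddeg _)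
    (fun _ => rfl) (fun _ => rfl) (fun ω => ω.2) (c.isReg_const_sub c.Bdeg)
    (c.isReg_const_sub c.Bdeg) (c.isReg_latAt hA hl x₀) (fun ω => ?_) hf
  obtain ⟨hd, he⟩ := c.Dcls ω.1
  obtain ⟨hd', he'⟩ := c.Dcls (-ω.1)
  rw [map_neg, ← he, ← show Pic0.mk (-⟨_, hd⟩) = -Pic0.mk ⟨_, hd⟩ from rfl] at he'
  obtain ⟨g, hg, hge⟩ := pic0_mk_eq_iff.mp he'
  refine ⟨g, hg, ?_⟩
  simp only [NegMemClass.coe_neg] at hge
  rw [sub_eq_iff_eq_add] at hge
  rw [hge]
  abel

theorem add_mem_span {f : M → QBar} (hf : f ∈ c.lat hA hl) :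
    (fun p : M × M => f (p.1 + p.2)) ∈ Submodule.span A
      {φ : M × M → QBar | ∃ a ∈ c.lat hA hl, ∃ b ∈ c.lat hA hl, φ = fun p => a p.1 * b p.2} := by
  set V := Submodule.span A
    {φ : M × M → QBar | ∃ a ∈ c.lat hA hl, ∃ b ∈ c.lat hA hl, φ = fun p => a p.1 * b p.2} with hV
  have key : ∀ x₀ y₀ : M,
      (fun p : M × M => c.ind x₀ p.1 * c.ind y₀ p.2 * f (p.1 + p.2)) ∈ V := by
    intro x₀ y₀
    let π₁ : c.Cls x₀ × c.Cls y₀ → c.Cls x₀ := Prod.fst
    let π₂ : c.Cls x₀ × c.Cls y₀ → c.Cls y₀ := Prod.snd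
    set R' := (c.latAt hA hl x₀).map (pullA A π₁) ⊔ (c.latAt hA hl y₀).map (pullA A π₂) with hR'
    have hR : HasIntValues R' := by
      have hle : R' ≤ Algebra.adjoin A {r : c.Cls x₀ × c.Cls y₀ → QBar | ∀ ω, r ω ∈ A} := by
        refine sup_le ?_ ?_
        · rintro _ ⟨r, hr, rfl⟩
          exact Algebra.subset_adjoin fun ω => c.hasIntValues_latAt hA hl x₀ ⟨r, hr⟩ _
        · rintro _ ⟨r, hr, rfl⟩
          exact Algebra.subset_adjoin fun ω => c.hasIntValues_latAt hA hl y₀ ⟨r, hr⟩ _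
      suffices key : ∀ f ∈ Algebra.adjoin A {r : c.Cls x₀ × c.Cls y₀ → QBar | ∀ ω, r ω ∈ A},
          ∀ ω, f ω ∈ A from fun r => key _ (hle r.2)
      intro f hf ω
      induction hf using Algebra.adjoin_induction with
      | mem r hr => exact hr ω
      | algebraMap a => exact a.2
      | add _ _ _ _ h1 h2 => exact add_mem h1 h2
      | mul _ _ _ _ h1 h2 => exact mul_mem h1 h2
    have h1 := (c.isReg_latAt hA hl x₀).comp π₁ (R' := R') fun r hr =>
      (le_sup_left : _ ≤ R') ⟨r, hr, rfl⟩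
    have h2 := (c.isReg_latAt hA hl y₀).comp π₂ (R' := R') fun r hr =>
      (le_sup_right : _ ≤ R') ⟨r, hr, rfl⟩
    have hmem := c.op_mem hA hl hR (z := fun ω => ω.1.1 + ω.2.1)
      (X := fun ω => c.D ω.1.1) (Y := fun ω => c.D ω.2.1) (T := fun _ => c.B) (fun _ => c.D0 _)
      (fun _ => c.D0 _) (fun _ => c.B0) (fun _ => c.Ddeg _) (fun _ => c.Ddeg _) (fun _ => c.Bdeg)
      (fun ω => ω.1.2) (fun ω => ω.2.2) (fun _ => rfl) h1 h2 (c.isReg_const_sub c.Bdeg)
      (fun ω => ?_) hf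
    · rw [hR', ← Algebra.adjoin_eq ((c.latAt hA hl x₀).map (pullA A π₁)),
        ← Algebra.adjoin_eq ((c.latAt hA hl y₀).map (pullA A π₂)), ← Algebra.adjoin_union,
        ← Subalgebra.mem_toSubmodule,
        Algebra.adjoin_union_coe_submodule, Algebra.adjoin_eq, Algebra.adjoin_eq] at hmem
      have hgen : ∀ φ ∈ Subalgebra.toSubmodule ((c.latAt hA hl x₀).map (pullA A π₁)) *
          Subalgebra.toSubmodule ((c.latAt hA hl y₀).map (pullA A π₂)),
          ∀ ψ : M × M → QBar, (∀ x (hx : c.db x = c.db x₀) y (hy : c.db y = c.db y₀),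
            ψ (x, y) = φ (⟨x, hx⟩, ⟨y, hy⟩)) →
          (fun p : M × M => c.ind x₀ p.1 * c.ind y₀ p.2 * ψ p) ∈ V := by
        intro φ hφ
        induction hφ using Submodule.mul_induction_on' with
        | mem_mul_mem a ha b hb =>
          intro ψ hψ
          obtain ⟨a', ⟨a'', ha'', rfl⟩, rfl⟩ := ha
          obtain ⟨b', ⟨b'', hb'', rfl⟩, rfl⟩ := hb
          refine Submodule.subset_span ⟨_, mul_mem (c.ind_mem_lat hA hl x₀) ha'', _,
            mul_mem (c.ind_mem_lat hA hl y₀) hb'', funext fun p => ?_⟩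
          by_cases hx : c.db p.1 = c.db x₀
          · by_cases hy : c.db p.2 = c.db y₀
            · rw [hψ p.1 hx p.2 hy]
              simp [ind, hx, hy, π₁, π₂]
            · simp [ind, hy]
          · simp [ind, hx]
        | add a _ b _ iha ihb =>
          intro ψ hψ
          have e1 := iha (fun p => if h : c.db p.1 = c.db x₀ ∧ c.db p.2 = c.db y₀ then
            a (⟨p.1, h.1⟩, ⟨p.2, h.2⟩) else 0) (fun x hx y hy => dif_pos ⟨hx, hy⟩)
          have e2 := ihb (fun p => if h : c.db p.1 = c.db x₀ ∧ c.db p.2 = c.db y₀ then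
            b (⟨p.1, h.1⟩, ⟨p.2, h.2⟩) else 0) (fun x hx y hy => dif_pos ⟨hx, hy⟩)
          convert V.add_mem e1 e2 using 1
          funext p
          by_cases hx : c.db p.1 = c.db x₀
          · by_cases hy : c.db p.2 = c.db y₀
            · simp [ind, hx, hy, hψ p.1 hx p.2 hy]
            · simp [ind, hy]
          · simp [ind, hx]
      exact hgen _ hmem _ fun x hx y hy => rfl
    · obtain ⟨hd, he⟩ := c.Dcls ω.1.1
      obtain ⟨hd', he'⟩ := c.Dcls ω.2.1
      obtain ⟨hd'', he''⟩ := c.Dcls (ω.1.1 + ω.2.1)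
      rw [map_add, ← he, ← he', ← Pic0.mk_add] at he''
      obtain ⟨g, hg, hge⟩ := pic0_mk_eq_iff.mp he''
      refine ⟨g, hg, ?_⟩
      simp only [AddMemClass.coe_add] at hge
      rw [sub_eq_iff_eq_add] at hge
      rw [hge]
      abel
  obtain ⟨reps, hreps⟩ := c.exists_reps
  have e : (fun p : M × M => f (p.1 + p.2)) =
      ∑ x₀ ∈ reps, ∑ y₀ ∈ reps, fun p : M × M => c.ind x₀ p.1 * c.ind y₀ p.2 * f (p.1 + p.2) := by
    funext p
    simp only [Finset.sum_apply, ← Finset.sum_mul, ← Finset.mul_sum]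
    rw [c.sum_ind hreps p.2, mul_one, c.sum_ind hreps p.1, one_mul]
  rw [e]
  exact sum_mem fun x₀ _ => sum_mem fun y₀ _ => key x₀ y₀

theorem lat_comul {f : M → QBar} (hf : f ∈ c.lat hA hl) :
    ∃ (n : ℕ) (a b : Fin n → (M → QBar)), (∀ i, a i ∈ c.lat hA hl) ∧ (∀ i, b i ∈ c.lat hA hl) ∧
      ∀ x y, f (x + y) = ∑ i, a i x * b i y := by
  obtain ⟨n, r, φ, hφ⟩ := Submodule.mem_span_set'.mp (c.add_mem_span hA hl hf)
  choose a ha b hb hab using fun i => (φ i).2
  refine ⟨n, fun i => r i • a i, b, fun i => (c.lat hA hl).smul_mem (ha i) _, hb, fun x y => ?_⟩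
  have h1 := congrFun hφ (x, y)
  simp only [Finset.sum_apply, Pi.smul_apply, hab] at h1
  rw [← h1]
  exact Finset.sum_congr rfl fun i _ => (smul_mul_assoc _ _ _).symm

theorem lat_sep (hi : Function.Injective i) (x y : M)
    (h : ∀ f ∈ c.lat hA hl, f x = f y) : x = y := by
  have hdb : c.db y = c.db x := by
    by_contra hne
    have := h _ (c.ind_mem_lat hA hl x)
    simp [ind, hne] at this
  have h1 : riemannRochSpace (c.E - c.D x) = riemannRochSpace (c.E - c.D y) := by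
    have hC : (Matrix.of fun a j => c.cf hA hl x a j x) =
        Matrix.of fun a j => c.cf hA hl x a j y :=
      Matrix.ext fun a j => h _ (c.cf_mem_lat hA hl x a j)
    have e1 := (c.isCoordsAt_cf hA hl x x rfl).span_eq c.uQ (c.finrank_eq_rk (c.Ddeg x))
    have e2 := (c.isCoordsAt_cf hA hl x y hdb).span_eq c.uQ (c.finrank_eq_rk (c.Ddeg y))
    rw [hC] at e1
    exact e1.symm.trans e2
  have hb := rrBound_lt_bigDeg (goodRed (A := A) hNA)
  have hd : ∀ z, rrBound (goodRed (A := A) hNA) + 1 ≤ Divisor.degree (c.E - c.D z) := fun z => by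
    have := c.bigDeg_le_degree_sub (c.Ddeg z)
    omega
  have h2 := le_antisymm
    (le_of_riemannRochSpace_le (fun _ => ell_eq_of_rrBound_le (goodRed hNA)) (hd x) h1.le)
    (le_of_riemannRochSpace_le (fun _ => ell_eq_of_rrBound_le (goodRed hNA)) (hd y) h1.ge)
  have h3 : c.D x = c.D y := sub_right_injective h2
  obtain ⟨hdx, hex⟩ := c.Dcls x
  obtain ⟨hdy, hey⟩ := c.Dcls y
  refine hi ?_
  rw [← hex, ← hey]
  exact congrArg Pic0.mk (Subtype.ext (congrArg (fun D => D - c.B) h3))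

section Galois

variable [DistribMulAction GQ M] (hσ : ∀ (g : GQ) (x : M), i (g • x) = g • i x)

include hσ in
theorem cls_smul (σ : GQ) (x : M) :
    ∃ hd, Pic0.mk (⟨galF N σ • c.D x - galF N σ • c.B, hd⟩ : Divisor.degZero) = i (σ • x) := by
  obtain ⟨hd, he⟩ := c.Dcls x
  refine ⟨by rw [← smul_sub]; exact SemilinearAut.smul_mem_degZero _ hd, ?_⟩
  rw [hσ, ← he, galois_smul_pic0_def, SemilinearAut.pic0_smul_mk]
  exact congrArg Pic0.mk (Subtype.ext (smul_sub _ _ _).symm)

include hσ in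
theorem lat_galAct {σ : GQ} (hd : σ • A = A) {f : M → QBar} (hf : f ∈ c.lat hA hl) :
    galAct σ f ∈ c.lat hA hl := by
  refine c.mem_lat_of_latAt hA hl fun x₀ => ?_
  set τ := σ⁻¹ with hτdef
  have hτ : τ • A = A := inv_smul_eq_self hd
  have hdeg : ∀ ω : c.Cls x₀, bigDeg (goodRed hNA) ≤
      Divisor.degree (galF N τ • (c.E - c.D ω.1)) := fun ω => by
    rw [SemilinearAut.degree_smul]; exact c.bigDeg_le_degree_sub (c.Ddeg _)
  obtain ⟨Yb, hYb, hreg⟩ := (c.isReg_latAt hA hl x₀).galF_smul hNA hτ (c.Efix τ)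
    (X := fun ω : c.Cls x₀ => c.D ω.1) hdeg (fun ω => c.bigDeg_le_degree_sub (c.Ddeg _))
    (fun ω => ω.2)
  have hnn : ∀ D : Divisor QBar Fb, 0 ≤ D → 0 ≤ galF N τ • D := fun D hD =>
    Finsupp.le_def.mpr fun w => by
      rw [SemilinearAut.divisor_smul_apply]; exact Finsupp.le_def.mp hD _
  have hdτ : ∀ D : Divisor QBar Fb, Divisor.degree D = genusFF QBar Fb →
      Divisor.degree (galF N τ • D) = genusFF QBar Fb := fun D hD => by
    rw [SemilinearAut.degree_smul, hD]
  obtain ⟨r, hr, he⟩ := c.op_mem hA hl (hasIntValues_galRing hτ (c.hasIntValues_latAt hA hl x₀))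
    (z := fun ω => τ • ω.1) (X := fun ω => galF N τ • c.D ω.1) (Y := fun _ => c.B)
    (T := fun _ => galF N τ • c.B) (fun _ => hnn _ (c.D0 _)) (fun _ => c.B0)
    (fun _ => hnn _ c.B0) (fun _ => hdτ _ (c.Ddeg _)) (fun _ => c.Bdeg) (fun _ => hdτ _ c.Bdeg)
    hYb (fun _ => rfl) (fun _ => rfl) hreg (c.isReg_const_sub c.Bdeg)
    (c.isReg_const_sub (hdτ _ c.Bdeg)) (fun ω => by
      obtain ⟨h1, e1⟩ := c.cls_smul hσ τ ω.1
      obtain ⟨h2, e2⟩ := c.Dcls (τ • ω.1)
      obtain ⟨g, hg, hge⟩ := pic0_mk_eq_iff.mp (e2.trans e1.symm)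
      refine ⟨g, hg, ?_⟩
      rw [sub_eq_iff_eq_add] at hge
      rw [hge]
      exact (add_right_comm _ _ _).trans
        (congrArg (· + div QBar g) (sub_add_eq_add_sub _ _ _))) hf
  convert hr using 1
  funext ω
  have h1 : f (τ • ω.1) = τ (r ω) := congrFun he ω
  show σ (f (σ⁻¹ • ω.1)) = r ω
  rw [← hτdef, h1, hτdef, ← AlgEquiv.mul_apply, mul_inv_cancel, AlgEquiv.one_apply]

include hA hσ in
theorem D_smul_inertia {u : GQ} (hu : u ∈ A.inertiaSubgroupIn ℚ) (x : M) :
    galF N u • c.D x = c.D (u • x) := by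
  refine c.eq_of_cls (Finsupp.le_def.mpr fun w => ?_) ?_
  · rw [SemilinearAut.divisor_smul_apply]; exact Finsupp.le_def.mp (c.D0 x) _
  · have := c.cls_smul hσ u x
    rwa [c.Bfix u hu] at this

include hA hσ in
theorem db_smul_inertia {u : GQ} (hu : u ∈ A.inertiaSubgroupIn ℚ) (x : M) :
    c.db (u • x) = c.db x := by
  rw [db, db, ← c.D_smul_inertia hA hσ hu x, redDiv_galF hA hNA hu]

include hσ in
theorem gens_fixed {u : GQ} (hu : u ∈ A.inertiaSubgroupIn ℚ) {f : M → QBar}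
    (hf : f ∈ c.gens hA hl) : galAct u f = f := by
  have key : ∀ x, f (u • x) = u (f x) := by
    intro x
    rcases hf with ⟨x₀, rfl⟩ | hf
    · simp only [ind, c.db_smul_inertia hA hσ hu x]
      split <;> simp
    · obtain ⟨x₀, ⟨a, j⟩, rfl⟩ := Set.mem_iUnion.mp hf
      show c.cf hA hl x₀ a j (u • x) = u (c.cf hA hl x₀ a j x)
      by_cases hx : c.db x = c.db x₀
      · have hux := (c.db_smul_inertia hA hσ hu x).trans hx
        have hC := c.isCoordsAt_cf hA hl x₀ x hx
        have hC' : c.IsCoordsAt hA hl x₀ (u • x)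
            (Matrix.of fun a j => u (c.cf hA hl x₀ a j x)) := by
          refine ⟨fun j => ?_, ?_⟩
          · have h1 := galF_mem_riemannRochSpace u (hC.1 j)
            rw [Finset.smul_sum, smul_sub, c.Efix, c.D_smul_inertia hA hσ hu x] at h1
            convert h1 using 1
            exact Finset.sum_congr rfl fun a _ => by
              rw [galF_smul_smul, c.ufix]; rfl
          · ext k k'
            have h2 := congrArg u (congrFun (congrFun hC.2 k) k')
            rw [Matrix.mul_apply, map_sum] at h2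
            rw [Matrix.mul_apply]
            refine Eq.trans (Eq.trans (Finset.sum_congr rfl fun a _ => ?_) h2) ?_
            · rw [map_mul, Matrix.map_apply]
              show _ = u (c.Lt hA hl x₀ k a : QBar) * _
              rw [c.Lt_fix hA hl x₀ hu]
              rfl
            · rw [Matrix.one_apply]; split <;> simp
        exact (congrFun (congrFun (c.coords_unique hA hl hux hC') a) j).symm
      · rw [c.cf_of_ne hA hl x₀ x hx,
          c.cf_of_ne hA hl x₀ _ (fun e => hx ((c.db_smul_inertia hA hσ hu x).symm.trans e)),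
          map_zero]
  funext x
  rw [galAct, ← key, smul_inv_smul]

include c hA hl hσ in
theorem exists_galOrder (hi : Function.Injective i)
    (hopen : ∀ x : M, IsOpen (MulAction.stabilizer GQ x : Set GQ)) :
    ∃ O : GalOrder l M, ∀ f ∈ O.H,
      ∀ x : M, redCls (goodRed hNA) (i x) = 0 → f x - f 0 ∈ A.nonunits := by
  haveI := Fintype.ofFinite M
  set G := c.gens hA hl with hG
  have hGfin : G.Finite :=
    (Set.finite_range _).union (Set.finite_iUnion fun x₀ => Set.finite_range _)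
  haveI := hGfin.fintype
  let U : Subgroup GQ :=
    { carrier := {u | ∀ f ∈ G, galAct u f = f}
      mul_mem' := fun {a b} ha hb f hf => by rw [galAct_mul, hb f hf, ha f hf]
      one_mem' := fun f _ => funext fun x => by simp [galAct]
      inv_mem' := fun {a} ha f hf => by
        conv_lhs => rw [← ha f hf]
        rw [← galAct_mul, inv_mul_cancel]
        exact funext fun x => by simp [galAct] }
  let vals : Set QBar := ⋃ f ∈ G, Set.range f
  have hvals : vals.Finite := hGfin.biUnion fun f _ => Set.finite_range f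
  haveI := hvals.fintype
  let L := IntermediateField.adjoin ℚ vals
  haveI : FiniteDimensional ℚ L := IntermediateField.finiteDimensional_adjoin fun y _ =>
    ((AlgebraicClosure.isAlgebraic ℚ).isAlgebraic y).isIntegral
  let U0 : Subgroup GQ := L.fixingSubgroup ⊓ ⨅ x : M, MulAction.stabilizer GQ x
  have hU0 : IsOpen (U0 : Set GQ) := by
    rw [Subgroup.coe_inf, Subgroup.coe_iInf]
    exact (IntermediateField.fixingSubgroup_isOpen L).inter (isOpen_iInter_of_finite hopen)
  have hle : U0 ≤ U := by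
    intro u hu f hf
    funext x
    have h1 : u⁻¹ • x = x :=
      inv_smul_eq_iff.mpr (MulAction.mem_stabilizer_iff.mp (Subgroup.mem_iInf.mp hu.2 x)).symm
    rw [galAct, h1]
    exact (IntermediateField.mem_fixingSubgroup_iff _ _).mp hu.1 _
      (IntermediateField.subset_adjoin ℚ _ (Set.mem_biUnion hf ⟨x, rfl⟩))
  have hgen : (c.lat hA hl).toSubmodule ≤
      Submodule.span A {f | f ∈ c.lat hA hl ∧ ∀ u ∈ U, galAct u f = f} := by
    rw [lat, Algebra.adjoin_eq_span, Submodule.span_le]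
    intro f hf
    refine Submodule.subset_span ⟨?_, fun u hu => ?_⟩
    · exact (Submonoid.closure_le
        (S := (Algebra.adjoin A G).toSubsemiring.toSubmonoid)).mpr Algebra.subset_adjoin hf
    · induction hf using Submonoid.closure_induction with
      | mem f hf => exact hu f hf
      | one => exact funext fun x => by simp [galAct]
      | mul a b _ _ ha hb =>
        funext x
        simp only [galAct, Pi.mul_apply, map_mul]
        exact congrArg₂ (· * ·) (congrFun ha x) (congrFun hb x)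
  obtain ⟨O, hO⟩ := exists_galOrder_of_lattice hA hl (c.lat hA hl) (fun f hf => c.lat_mem_A hA hl hf)
    (fun d hd f hf => c.lat_galAct hA hl hσ hd hf) (U := U) (Subgroup.isOpen_mono hle hU0)
    (fun u hu f hf => c.gens_fixed hA hl hσ hu hf) hgen (fun x y h => c.lat_sep hA hl hi x y h)
    (fun f hf => c.lat_comul hA hl hf) (fun f hf => c.lat_neg hA hl hf)
  refine ⟨O, fun f hf x hx => c.lat_congr hA hl ?_ x 0 (c.db_eq_of_redCls ?_)⟩
  · rw [hO] at hf
    exact hf.1
  · rw [hx, map_zero, map_zero]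

end Galois

end Chart

end Fermat.Agent.FiniteFlat
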