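import Fermat.Agent.FiniteFlat.TorsionLattice
import Fermat.Agent.GaloisReps.HeckeGalois
import Fermat.Agent.MordellWeil.Main
import Fermat.Agent.EichlerShimura.Specialization

/-!
# Galois orders on the torsion of `J₀(N)` at primes not dividing `N`
-/

set_option autoImplicit false
set_option maxHeartbeats 1000000
set_option synthInstance.maxHeartbeats 400000

noncomputable section

open IsLocalRing AlgebraicCurve ModularCurve
open Fermat.Agent.Arith

namespace Fermat.Agent.FiniteFlat

/-- The points of `J₀(N)` killed by `c`. -/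
abbrev JTorsBy (N : ℕ) (c : ℤ) : Type := ↥(Submodule.torsionBy ℤ (JZero N) c)

theorem smul_mem_torsionBy {N : ℕ} {c : ℤ} (σ : GQ) (x : JTorsBy N c) :
    σ • (x : JZero N) ∈ Submodule.torsionBy ℤ (JZero N) c := by
  have hx : c • (x : JZero N) = 0 := (Submodule.mem_torsionBy_iff _ _).mp x.2
  rw [Submodule.mem_torsionBy_iff, ← smul_zero σ, ← hx]
  exact (map_zsmul (DistribSMul.toAddMonoidHom (JZero N) σ) c (x : JZero N)).symm

instance jTorsByAction (N : ℕ) (c : ℤ) : DistribMulAction GQ (JTorsBy N c) where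
  smul σ x := ⟨σ • (x : JZero N), smul_mem_torsionBy σ x⟩
  one_smul x := Subtype.ext (one_smul GQ (x : JZero N))
  mul_smul σ τ x := Subtype.ext (mul_smul σ τ (x : JZero N))
  smul_zero σ := Subtype.ext (smul_zero σ)
  smul_add σ x y := Subtype.ext (smul_add σ (x : JZero N) (y : JZero N))

theorem coe_smul_jTorsBy {N : ℕ} {c : ℤ} (σ : GQ) (x : JTorsBy N c) :
    ((σ • x : JTorsBy N c) : JZero N) = σ • (x : JZero N) := rfl

theorem natAbs_nsmul_jTorsBy {N : ℕ} {c : ℤ} (x : JTorsBy N c) :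
    c.natAbs • (x : JZero N) = 0 := by
  have hx : c • (x : JZero N) = 0 := (Submodule.mem_torsionBy_iff _ _).mp x.2
  generalize (x : JZero N) = y at hx ⊢
  rcases Int.natAbs_eq c with h | h <;> rw [h] at hx
  · rwa [natCast_zsmul] at hx
  · rwa [neg_smul, neg_eq_zero, natCast_zsmul] at hx

theorem finite_jTorsBy (N : ℕ) [NeZero N] {c : ℤ} (hc : c ≠ 0) : Finite (JTorsBy N c) := by
  haveI := (MordellWeil.jZero_finite_torsion N c.natAbs (Int.natAbs_pos.mpr hc)).to_subtype
  exact Finite.of_injective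
    (fun x : JTorsBy N c => (⟨x.1, natAbs_nsmul_jTorsBy x⟩ :
      {x : JZero N | c.natAbs • x = 0}))
    fun x y h => Subtype.ext (congrArg Subtype.val h :)

theorem isOpen_stabilizer_jTorsBy (N : ℕ) [NeZero N] {c : ℤ} (hc : c ≠ 0) (x : JTorsBy N c) :
    IsOpen (MulAction.stabilizer GQ x : Set GQ) := by
  haveI : NeZero c.natAbs := ⟨Int.natAbs_ne_zero.mpr hc⟩
  obtain ⟨L, hL, hfix⟩ := GaloisReps.exists_fixing_torsion (N := N) (m := c.natAbs)
    ⟨(x : JZero N), by rw [Pic0.mem_torsion, natCast_zsmul]; exact natAbs_nsmul_jTorsBy x⟩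
  refine Subgroup.isOpen_mono (fun σ hσ => ?_) (IntermediateField.fixingSubgroup_isOpen L)
  exact Subtype.ext (hfix σ fun z hz => (IntermediateField.mem_fixingSubgroup_iff _ _).mp hσ z hz)

/-- At a place over `l ∤ N` the `c`-torsion of `J₀(N)` has a Galois order with functions congruent
on the classes reducing to zero. -/
theorem exists_galOrder_jTorsBy {N : ℕ} [NeZero N] {l : ℕ} (hl : l.Prime) (hlN : ¬ l ∣ N)
    (A : ValuationSubring QBar) (hA : A.LiesOverPrime l) {c : ℤ} (hc : c ≠ 0) :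
    ∃ O : GalOrder l (JTorsBy N c), ∀ f ∈ O.H, ∀ x : JTorsBy N c,
      reductionModL A N (x : JZero N) = 0 → f x - f 0 ∈ A.nonunits := by
  haveI : Fact l.Prime := ⟨hl⟩
  haveI := Arith.residueField_charP hA hl
  haveI : IsAlgClosed (ResidueField A) := Arith.residueField_isAlgClosed A
  have hNA : (N : ResidueField A) ≠ 0 := EichlerShimura.natCast_ne_zero hl hlN hA
  haveI : FF.IsFunctionField QBar (modularFunctionFieldBar N) := EichlerShimura.isFunctionField_bar
  haveI : FF.IsFunctionField (ResidueField A) (modularFunctionFieldFullC (ResidueField A) N) :=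
    RedTorsion.isFunctionField_full (F := modularFunctionFieldFullC (ResidueField A) N) rfl hNA
  haveI := finite_jTorsBy N hc
  let i : JTorsBy N c →+ JZero N := (Submodule.torsionBy ℤ (JZero N) c).subtype.toAddMonoidHom
  obtain ⟨ch⟩ := nonempty_chart hNA hA hl i
  obtain ⟨O, hO⟩ := ch.exists_galOrder hA hl (fun g x => rfl) (fun x y h => Subtype.ext h)
    (isOpen_stabilizer_jTorsBy N hc)
  refine ⟨O, fun f hf x hx => hO f hf x ?_⟩
  obtain ⟨D, hD⟩ := Pic0.mk_surjective (x : JZero N)
  have htors : (c.natAbs : ℤ) • Pic0.mk D = 0 := by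
    rw [hD, natCast_zsmul]; exact natAbs_nsmul_jTorsBy x
  show redCls (goodRed hNA) (x : JZero N) = 0
  rw [← hD, redCls_mk, ← hx, ← hD, reductionModL_mk_of_torsion (seriesCompat hNA)
    (EichlerShimura.principalGeneratedByIntegral hNA) D (Int.natAbs_ne_zero.mpr hc) htors]
  rfl

/-- At a prime `l ∤ N` the `c`-torsion of `J₀(N)` has a Galois order. -/
theorem nonempty_galOrder_jTorsBy {N : ℕ} [NeZero N] {l : ℕ} (hl : l.Prime) (hlN : ¬ l ∣ N)
    {c : ℤ} (hc : c ≠ 0) : Nonempty (GalOrder l (JTorsBy N c)) := by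
  obtain ⟨A, hA⟩ := Arith.exists_liesOverPrime hl
  exact ⟨(exists_galOrder_jTorsBy hl hlN A hA hc).choose⟩

end Fermat.Agent.FiniteFlat
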